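import Fermat.Agent.NormalBases.Normal
import Fermat.Agent.Equidistribution.Weyl

/-!
# Normality in dependent bases

Normality in base `r` is equivalent to normality in base `r ^ k`. Downwards the residues of the
index modulo `k` split the exponential sum; upwards the sum is averaged over `L` translates, and by
Cauchy's inequality the square of the average over the multiples of `k` is at most `k` times that
over all indices, whose mean is `1 / L`.
-/

set_option autoImplicit false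

noncomputable section

namespace FA.NormalBases

open Finset Filter
open FA.ThreePrimes (eAdd eAdd_add eAdd_intCast norm_eAdd conj_eAdd sum_eAdd_grid)
open FA.Equidist (avg ExpMeanZero norm_eAdd_sub_le)
open scoped Topology ComplexConjugate

theorem expMeanZero_of_isNormalIn {r : ℕ} (hr : 2 ≤ r) {y : ℝ} (hy : IsNormalIn r y) :
    ExpMeanZero range fun n => (r : ℝ) ^ n * y := by
  intro h h0
  refine Metric.tendsto_atTop.2 fun ε hε => ?_
  obtain ⟨k, hk⟩ := pow_unbounded_of_one_lt (max (|(h : ℝ)|) (4 * Real.pi * |(h : ℝ)| / ε))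
    (show (1 : ℝ) < r by exact_mod_cast (show 1 < r by omega))
  rw [max_lt_iff] at hk
  obtain ⟨K, hK⟩ : ∃ K, K = r ^ k := ⟨_, rfl⟩
  have hKr : (r : ℝ) ^ k = K := by rw [hK]; push_cast; rfl
  rw [hKr] at hk
  have hK0 : (0 : ℝ) < K := (abs_nonneg _).trans_lt hk.1
  have hgrid : ∑ W ∈ range K, eAdd (h * W / K) = 0 := by
    rw [sum_eAdd_grid (Nat.cast_pos.1 hK0), if_neg]
    intro hd
    have h1 : (K : ℤ) ≤ |h| := Int.le_of_dvd (abs_pos.2 h0) ((dvd_abs _ _).2 hd)
    have h2 : (K : ℝ) ≤ |(h : ℝ)| := by exact_mod_cast h1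
    linarith [hk.1]
  obtain ⟨S, hS⟩ : ∃ S : ℕ → ℕ → Finset ℕ, S = fun N (W : ℕ) => (range N).filter fun i =>
      ⌊(r : ℝ) ^ (i + k) * y⌋ % ((r : ℤ) ^ k) = (W : ℤ) := ⟨_, rfl⟩
  have hlim : Tendsto (fun N => ∑ W ∈ range K, ((#(S N W) : ℝ) / N) • eAdd (h * W / K)) atTop
      (𝓝 0) := by
    have h7 := tendsto_finsetSum (range K) fun W hW =>
      (hy k W (hK ▸ mem_range.1 hW)).smul_const (eAdd (h * W / K))
    rw [← smul_sum, hgrid, smul_zero] at h7
    simpa only [hS] using h7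
  obtain ⟨N₀, hN₀⟩ := Metric.tendsto_atTop.1 hlim (ε / 2) (by linarith)
  refine ⟨max N₀ 1, fun N hN => ?_⟩
  have h9 := hN₀ N (le_trans (le_max_left _ _) hN)
  have hN0 : (0 : ℝ) < N := Nat.cast_pos.2 (le_trans (le_max_right _ _) hN)
  rw [dist_zero_right] at h9 ⊢
  obtain ⟨w, hw⟩ : ∃ w : ℕ → ℕ, w = fun i => ⌊(K : ℝ) * Int.fract ((r : ℝ) ^ i * y)⌋₊ := ⟨_, rfl⟩
  have hwK : ∀ i, w i < K := fun i => by
    rw [hw, Nat.floor_lt (mul_nonneg hK0.le (Int.fract_nonneg _))]
    exact mul_lt_of_lt_one_right hK0 (Int.fract_lt_one _)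
  have hSW : ∀ W, S N W = (range N).filter fun i => w i = W := fun W => by
    simp only [hS]
    refine filter_congr fun i _ => ?_
    rw [floor_pow_emod (by omega), hKr, hw, ← Nat.cast_inj (R := ℤ) (n := W),
      Int.natCast_floor_eq_floor (mul_nonneg hK0.le (Int.fract_nonneg _)), eq_comm]
  have hsum : ∑ W ∈ range K, ((#(S N W) : ℝ) / N) • eAdd (h * W / K) =
      avg (range N) fun i => eAdd (h * (w i : ℝ) / K) := by
    rw [avg, card_range, ← sum_fiberwise_of_maps_to (s := range N) (g := w) (t := range K)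
      (fun i _ => mem_range.2 (hwK i)), sum_div]
    refine sum_congr rfl fun W _ => ?_
    rw [hSW, sum_congr rfl fun i hi => by rw [(mem_filter.1 hi).2], sum_const, nsmul_eq_mul,
      Complex.real_smul]
    push_cast
    ring
  rw [hsum] at h9
  have hclose : ‖avg (range N) (fun i => eAdd (h * ((r : ℝ) ^ i * y))) -
      avg (range N) (fun i => eAdd (h * (w i : ℝ) / K))‖ ≤ 2 * Real.pi * |(h : ℝ)| / K := by
    simp only [avg, card_range, ← sub_div, ← sum_sub_distrib, norm_div, Complex.norm_natCast]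
    rw [div_le_iff₀ hN0]
    refine (norm_sum_le _ _).trans ((sum_le_card_nsmul _ _ (2 * Real.pi * |(h : ℝ)| / K)
      fun i _ => ?_).trans (le_of_eq (by rw [card_range, nsmul_eq_mul, mul_comm])))
    obtain ⟨f, hf⟩ : ∃ f, f = Int.fract ((r : ℝ) ^ i * y) := ⟨_, rfl⟩
    have e : eAdd (h * ((r : ℝ) ^ i * y)) = eAdd (h * f) := by
      rw [hf, ← Int.floor_add_fract ((r : ℝ) ^ i * y), mul_add, eAdd_add,
        show (h : ℝ) * (⌊(r : ℝ) ^ i * y⌋ : ℝ) = ((h * ⌊(r : ℝ) ^ i * y⌋ : ℤ) : ℝ) by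
          push_cast; rfl, eAdd_intCast, one_mul, Int.floor_add_fract]
    simp only [e, hw, ← hf]
    have hf0 : 0 ≤ (K : ℝ) * f := mul_nonneg hK0.le (hf ▸ Int.fract_nonneg _)
    refine (norm_eAdd_sub_le _ _).trans ?_
    rw [show (h : ℝ) * f - h * (⌊(K : ℝ) * f⌋₊ : ℝ) / K =
      (h : ℝ) * ((K * f - (⌊(K : ℝ) * f⌋₊ : ℝ)) / K) by field_simp, abs_mul, abs_div,
      abs_of_pos hK0, mul_div_assoc (2 * Real.pi), ← mul_div_assoc]
    refine mul_le_mul_of_nonneg_left (div_le_div_of_nonneg_right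
      (mul_le_of_le_one_right (abs_nonneg _) ?_) hK0.le) (by positivity)
    rw [abs_of_nonneg (sub_nonneg.2 (Nat.floor_le hf0))]
    linarith [Nat.lt_floor_add_one ((K : ℝ) * f)]
  have hπ : 2 * Real.pi * |(h : ℝ)| / K < ε / 2 := by
    have := (div_lt_iff₀ hε).1 hk.2
    rw [div_lt_div_iff₀ hK0 two_pos]
    linarith
  refine lt_of_le_of_lt (norm_le_norm_sub_add _
    (avg (range N) fun i => eAdd (h * (w i : ℝ) / K))) ?_
  linarith

/-- **Down to the base.** -/
theorem expMeanZero_of_pow {r k : ℕ} (hr : 2 ≤ r) (hk : 0 < k) {y : ℝ}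
    (hy : ExpMeanZero range fun n => ((r ^ k : ℕ) : ℝ) ^ n * y) :
    ExpMeanZero range fun n => (r : ℝ) ^ n * y := by
  intro h h0
  obtain ⟨u, hu⟩ : ∃ u : ℕ → ℂ, u = fun n => eAdd (h * ((r : ℝ) ^ n * y)) := ⟨_, rfl⟩
  rw [← hu]
  have hu1 : ∀ n, ‖u n‖ ≤ 1 := fun n => hu ▸ (norm_eAdd _).le
  have hlim : Tendsto (fun M => ∑ j ∈ range k, ‖(∑ i ∈ range M, u (k * i + j)) / (M : ℂ)‖)
      atTop (𝓝 0) := by
    rw [show (0 : ℝ) = ∑ j ∈ range k, 0 by simp]
    refine tendsto_finsetSum _ fun j _ => ?_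
    have h1 := (hy (h * (r : ℤ) ^ j) (mul_ne_zero h0 (pow_ne_zero _ (by omega)))).norm
    rw [norm_zero] at h1
    refine h1.congr fun M => ?_
    simp only [avg, card_range, hu]
    congr 2
    refine sum_congr rfl fun i _ => congrArg eAdd ?_
    push_cast
    rw [pow_add, ← pow_mul]
    ring
  refine squeeze_zero_norm' (a := fun N : ℕ => (∑ j ∈ range k,
    ‖(∑ i ∈ range (N / k), u (k * i + j)) / ((N / k : ℕ) : ℂ)‖) + (k : ℝ) / N) ?_ ?_
  · filter_upwards [eventually_ge_atTop k] with N hN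
    obtain ⟨M, hM⟩ : ∃ M, M = N / k := ⟨_, rfl⟩
    have hM0 : 0 < M := hM ▸ Nat.div_pos hN hk
    have hN0 : (0 : ℝ) < N := Nat.cast_pos.2 (by omega)
    rw [← hM, avg, card_range, norm_div, Complex.norm_natCast, div_le_iff₀ hN0, add_mul,
      div_mul_cancel₀ _ hN0.ne']
    conv_lhs => rw [← Nat.div_add_mod N k, ← hM, sum_range_add, sum_range_split, sum_comm]
    refine (norm_add_le _ _).trans (add_le_add ?_ ?_)
    · refine (norm_sum_le _ _).trans ?_
      rw [sum_mul]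
      refine sum_le_sum fun j _ => ?_
      rw [norm_div, Complex.norm_natCast]
      refine le_trans (le_of_eq (div_mul_cancel₀ _ (Nat.cast_ne_zero.2 hM0.ne')).symm)
        (mul_le_mul_of_nonneg_left ?_ (by positivity))
      exact Nat.cast_le.2 (hM ▸ Nat.div_le_self N k)
    · refine (norm_sum_le_of_le _ fun i _ => hu1 _).trans ?_
      rw [sum_const, card_range, nsmul_one]
      exact Nat.cast_le.2 (Nat.mod_lt N hk).le
  · have h1 : Tendsto (fun N : ℕ => N / k) atTop atTop :=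
      tendsto_atTop_atTop.2 fun M => ⟨M * k, fun N hN => (Nat.le_div_iff_mul_le hk).2 hN⟩
    simpa using (hlim.comp h1).add (tendsto_const_div_atTop_nhds_zero_nat (k : ℝ))

/-- **Up to a power.** -/
theorem expMeanZero_pow {r k : ℕ} (hr : 2 ≤ r) (hk : 0 < k) {y : ℝ}
    (hy : ExpMeanZero range fun n => (r : ℝ) ^ n * y) :
    ExpMeanZero range fun n => ((r ^ k : ℕ) : ℝ) ^ n * y := by
  intro h h0
  obtain ⟨u, hu⟩ : ∃ u : ℕ → ℂ, u = fun n => eAdd (h * (((r ^ k : ℕ) : ℝ) ^ n * y)) := ⟨_, rfl⟩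
  rw [← hu]
  have hu1 : ∀ n, ‖u n‖ ≤ 1 := fun n => hu ▸ (norm_eAdd _).le
  refine Metric.tendsto_atTop.2 fun ε hε => ?_
  obtain ⟨L, hL⟩ := exists_nat_gt (2 * k / (ε / 2) ^ 2)
  have hL0 : (0 : ℝ) < L := lt_of_le_of_lt (by positivity) hL
  have hL1 : 0 < L := Nat.cast_pos.1 hL0
  obtain ⟨g, hg⟩ : ∃ g : ℕ → ℂ, g = fun n => ∑ l ∈ range L,
      eAdd (h * ((r : ℝ) ^ (k * l) * ((r : ℝ) ^ n * y))) := ⟨_, rfl⟩
  have hoff : ∀ z : ℕ × ℕ, Tendsto (fun M => avg (range M) fun n =>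
      eAdd (h * ((r : ℝ) ^ (k * z.1) * ((r : ℝ) ^ n * y))) *
        conj (eAdd (h * ((r : ℝ) ^ (k * z.2) * ((r : ℝ) ^ n * y))))) atTop
          (𝓝 (if z.1 = z.2 then 1 else 0)) := fun z => by
    split_ifs with hz
    · refine tendsto_const_nhds.congr' ?_
      filter_upwards [eventually_gt_atTop 0] with M hM
      simp only [avg, hz, Complex.mul_conj', norm_eAdd, Complex.ofReal_one, one_pow, sum_const,
        card_range, nsmul_eq_mul, mul_one]
      rw [div_self (Nat.cast_ne_zero.2 hM.ne')]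
    · have hne : (r : ℤ) ^ (k * z.1) - (r : ℤ) ^ (k * z.2) ≠ 0 := by
        rw [sub_ne_zero]
        intro e
        exact hz (Nat.eq_of_mul_eq_mul_left hk
          (Nat.pow_right_injective hr (by exact_mod_cast e)))
      refine (hy (h * ((r : ℤ) ^ (k * z.1) - (r : ℤ) ^ (k * z.2)))
        (mul_ne_zero h0 hne)).congr fun M => ?_
      refine congrArg (avg (range M)) (funext fun n => ?_)
      rw [conj_eAdd, ← eAdd_add]
      congr 1
      push_cast
      ring
  have hmean : Tendsto (fun M : ℕ => (∑ n ∈ range M, ‖g n‖ ^ 2) / M) atTop (𝓝 (L : ℝ)) := by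
    have h1 := tendsto_finsetSum (range L ×ˢ range L) fun z _ => hoff z
    have h2 := (Complex.continuous_re.tendsto _).comp h1
    have e : (∑ z ∈ range L ×ˢ range L, (if z.1 = z.2 then (1 : ℂ) else 0)).re = L := by
      rw [sum_product, sum_congr rfl fun a ha => by rw [sum_ite_eq (range L) a, if_pos ha],
        sum_const, card_range, nsmul_one, Complex.natCast_re]
    rw [e] at h2
    refine h2.congr fun M => ?_
    simp only [Function.comp_apply, avg, card_range, ← sum_div]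
    rw [sum_comm]
    have e2 : ∀ n, ∑ z ∈ range L ×ˢ range L,
        eAdd (h * ((r : ℝ) ^ (k * z.1) * ((r : ℝ) ^ n * y))) *
          conj (eAdd (h * ((r : ℝ) ^ (k * z.2) * ((r : ℝ) ^ n * y)))) =
        ((‖g n‖ ^ 2 : ℝ) : ℂ) := fun n => by
      rw [Complex.ofReal_pow, ← Complex.mul_conj']
      simp only [hg, map_sum, sum_mul_sum, sum_product]
    rw [sum_congr rfl fun n _ => e2 n, ← Complex.ofReal_sum, ← Complex.ofReal_natCast,
      ← Complex.ofReal_div, Complex.ofReal_re]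
  obtain ⟨M₀, hM₀⟩ := Metric.tendsto_atTop.1 hmean 1 one_pos
  obtain ⟨N₁, hN₁⟩ := exists_nat_gt (4 * L / ε)
  refine ⟨max (max M₀ N₁) 1, fun N hN => ?_⟩
  have hN0 : (0 : ℝ) < N := Nat.cast_pos.2 (le_trans (le_max_right _ _) hN)
  have hNN : (N₁ : ℝ) ≤ N := Nat.cast_le.2 (le_trans ((le_max_right M₀ N₁).trans
    (le_max_left _ _)) hN)
  have hkN : M₀ ≤ k * N := ((le_max_left M₀ N₁).trans (le_max_left _ _)).trans
    (hN.trans (Nat.le_mul_of_pos_left N hk))
  have hb := hM₀ (k * N) hkN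
  rw [Real.dist_eq, abs_lt, sub_lt_iff_lt_add, lt_sub_iff_add_lt, Nat.cast_mul] at hb
  have hG : ∑ n ∈ range (k * N), ‖g n‖ ^ 2 ≤ (k : ℝ) * N * (2 * L) := by
    have h1 := (div_lt_iff₀ (mul_pos (Nat.cast_pos.2 hk) hN0)).1 hb.2
    have h2 : (1 : ℝ) ≤ L := Nat.one_le_cast.2 hL1
    nlinarith [mul_pos (Nat.cast_pos (α := ℝ).2 hk) hN0]
  have hgu : ∀ i, g (k * i) = ∑ l ∈ range L, u (i + l) := fun i => by
    simp only [hg, hu]
    refine sum_congr rfl fun l _ => congrArg eAdd ?_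
    push_cast
    rw [← pow_mul, mul_add, pow_add]
    ring
  have havg : ‖∑ i ∈ range N, g (k * i)‖ ^ 2 ≤ (N : ℝ) * ((k : ℝ) * N * (2 * L)) := by
    refine (pow_le_pow_left₀ (norm_nonneg _) (norm_sum_le _ _) 2).trans
      (sq_sum_le_card_mul_sum_sq.trans ?_)
    rw [card_range]
    refine mul_le_mul_of_nonneg_left (le_trans ?_ hG) hN0.le
    rw [sum_range_split]
    exact sum_le_sum fun i _ => single_le_sum (f := fun j => ‖g (k * i + j)‖ ^ 2)
      (fun j _ => sq_nonneg _) (mem_range.2 hk)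
  have hshift : ‖(L : ℂ) * ∑ i ∈ range N, u i‖ ≤
      ‖∑ i ∈ range N, g (k * i)‖ + L * (2 * L) := by
    have e : ∑ i ∈ range N, g (k * i) = ∑ l ∈ range L, ∑ i ∈ range N, u (i + l) := by
      rw [sum_congr rfl fun i _ => hgu i, sum_comm]
    have e2 : (L : ℂ) * ∑ i ∈ range N, u i = ∑ l ∈ range L, ∑ i ∈ range N, u i := by
      rw [sum_const, card_range, nsmul_eq_mul]
    rw [e, e2]
    refine (norm_le_norm_add_norm_sub' _ (∑ l ∈ range L, ∑ i ∈ range N, u (i + l))).trans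
      (add_le_add le_rfl ?_)
    rw [← sum_sub_distrib]
    refine (norm_sum_le _ _).trans ((sum_le_card_nsmul _ _ (2 * (L : ℝ)) fun l hl => ?_).trans
      (le_of_eq (by rw [card_range, nsmul_eq_mul])))
    rw [norm_sub_rev]
    exact (FA.Equidist.norm_sum_shift_sub_le hu1 l N).trans
      (mul_le_mul_of_nonneg_left (Nat.cast_le.2 (mem_range.1 hl).le) two_pos.le)
  rw [norm_mul, Complex.norm_natCast] at hshift
  have hsq : ‖∑ i ∈ range N, g (k * i)‖ ≤ ε / 2 * L * N := by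
    refine (pow_le_pow_iff_left₀ (norm_nonneg _) (by positivity) two_ne_zero).1 (havg.trans ?_)
    have h1 : (k : ℝ) * 2 ≤ (ε / 2) ^ 2 * L := by
      have := (div_lt_iff₀ (show (0 : ℝ) < (ε / 2) ^ 2 by positivity)).1 hL
      linarith
    have := mul_le_mul_of_nonneg_left h1 (show (0 : ℝ) ≤ L * (N : ℝ) ^ 2 by positivity)
    linarith
  have hsmall : 2 * (L : ℝ) < ε / 2 * N := by
    have := (div_lt_iff₀ hε).1 (hN₁.trans_le hNN)
    linarith
  rw [dist_zero_right, avg, card_range, norm_div, Complex.norm_natCast, div_lt_iff₀ hN0]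
  refine lt_of_mul_lt_mul_left (a := (L : ℝ)) ?_ hL0.le
  have := mul_lt_mul_of_pos_left hsmall hL0
  linarith

/-- **Normality in a power of the base.** -/
theorem isNormalIn_pow_iff {r k : ℕ} (hr : 2 ≤ r) (hk : 0 < k) (y : ℝ) :
    IsNormalIn (r ^ k) y ↔ IsNormalIn r y := by
  have hrk : 2 ≤ r ^ k := hr.trans (Nat.le_self_pow hk.ne' r)
  exact ⟨fun h => isNormalIn_of_expMeanZero hr
      (expMeanZero_of_pow hr hk (expMeanZero_of_isNormalIn hrk h)),
    fun h => isNormalIn_of_expMeanZero hrk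
      (expMeanZero_pow hr hk (expMeanZero_of_isNormalIn hr h))⟩

theorem isNormalIn_iff_of_dependent {r s i j : ℕ} (hr : 2 ≤ r) (hs : 2 ≤ s) (hi : 0 < i)
    (hj : 0 < j) (h : r ^ i = s ^ j) (y : ℝ) : IsNormalIn r y ↔ IsNormalIn s y := by
  rw [← isNormalIn_pow_iff hr hi, h, isNormalIn_pow_iff hs hj]

/-- **The separating points.** -/
theorem schmidt_separation {s : ℕ} (hs : 2 ≤ s) :
    ¬{y : ℝ | (∀ r : ℕ, 2 ≤ r → IndepBases r s → IsNormalIn r y) ∧ ¬IsNormalIn s y}.Countable := by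
  obtain ⟨b, k, hb, hk, hbk⟩ : ∃ b k : ℕ, 3 ≤ b ∧ 0 < k ∧ b = s ^ k := by
    rcases eq_or_lt_of_le hs with rfl | hs3
    · exact ⟨4, 2, by norm_num, two_pos, rfl⟩
    · exact ⟨s, 1, hs3, one_pos, (pow_one s).symm⟩
  intro hc
  have hb2 : 2 ≤ b := by omega
  have := isProbabilityMeasure_cantorMeasure hb2
  have hall : ∀ᵐ y ∂cantorMeasure b, ∀ r : ℕ, 2 ≤ r → IndepBases r s → IsNormalIn r y := by
    refine MeasureTheory.ae_all_iff.2 fun r => ?_
    by_cases h : 2 ≤ r ∧ IndepBases r s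
    · have hind : IndepBases r b := fun i j hi hj e =>
        h.2 i (k * j) hi (Nat.mul_pos hk hj) (by rw [e, hbk, pow_mul])
      filter_upwards [ae_normal hb h.1 hind] with y hy _ _
      exact hy
    · exact Eventually.of_forall fun y h1 h2 => absurd ⟨h1, h2⟩ h
  have h := MeasureTheory.ae_of_ae_map (measurable_coded hb2).aemeasurable
    (hall.and (MeasureTheory.measure_eq_zero_iff_ae_notMem.1 (cantorMeasure_countable hb hc)))
  have hne : MeasureTheory.volume.restrict (Set.Ioc (0 : ℝ) 1) ≠ 0 := fun e => by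
    have := congrArg (fun m : MeasureTheory.Measure ℝ => m Set.univ) e
    simp at this
  have : (MeasureTheory.ae (MeasureTheory.volume.restrict (Set.Ioc (0 : ℝ) 1))).NeBot :=
    MeasureTheory.ae_neBot.2 hne
  obtain ⟨t, hnormal, hnot⟩ := h.exists
  refine hnot ⟨hnormal, fun hs' => ?_⟩
  have hb' : IsNormalIn b (coded b t) := by
    have := (isNormalIn_pow_iff hs hk (coded b t)).2 hs'
    rwa [← hbk] at this
  exact not_normal_self hb (binaryBit t) (hb' 1 1 (by rw [pow_one]; omega))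

end FA.NormalBases

end
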