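import Fermat.Agent.NormalBases.Measure
import Mathlib.Algebra.Order.Chebyshev

/-!
# The transform of a Cantor measure

The transform is a product over the digits, unchanged by a factor `p` at the integers. For
`p = b₁ b₂` with coprime factors, `b₁ ≥ 2`, the product of the first `k` factors is on average at
most `(3 / 4) ^ k` over the residues modulo `p ^ k` that are multiples of `b₂ ^ k`.
-/

set_option autoImplicit false

noncomputable section

namespace FA.NormalBases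

open MeasureTheory Finset Filter
open FA.ThreePrimes (eAdd eAdd_add eAdd_intCast norm_eAdd conj_eAdd sum_eAdd_grid)
open scoped Topology ComplexConjugate

theorem continuous_eAdd_mul (ξ : ℝ) : Continuous fun y : ℝ => eAdd (ξ * y) := by
  unfold eAdd
  fun_prop

/-- The transform of the Cantor measure. -/
def cantorFourier (p : ℕ) (ξ : ℝ) : ℂ := ∫ y, eAdd (ξ * y) ∂cantorMeasure p

theorem norm_cantorFourier_le_one {p : ℕ} (hp : 2 ≤ p) (ξ : ℝ) : ‖cantorFourier p ξ‖ ≤ 1 := by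
  have := isProbabilityMeasure_cantorMeasure hp
  refine (norm_integral_le_of_norm_le_const (Eventually.of_forall fun y =>
    (norm_eAdd (ξ * y)).le)).trans (le_of_eq ?_)
  rw [probReal_univ, one_mul]

theorem cantorFourier_neg (p : ℕ) (ξ : ℝ) : cantorFourier p (-ξ) = conj (cantorFourier p ξ) := by
  rw [cantorFourier, cantorFourier, ← integral_conj]
  simp only [conj_eAdd, neg_mul]

/-- **One digit.** -/
theorem cantorFourier_rec {p : ℕ} (hp : 2 ≤ p) (ξ : ℝ) :
    cantorFourier p ξ = (1 + eAdd (((p : ℝ) - 1) * (ξ / p))) / 2 * cantorFourier p (ξ / p) := by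
  rw [cantorFourier, integral_selfSimilar hp (continuous_eAdd_mul ξ).measurable
    fun y => (norm_eAdd _).le]
  have e1 : (fun y : ℝ => eAdd (ξ * (y / p))) = fun y : ℝ => eAdd (ξ / p * y) :=
    funext fun y => by congr 1; ring
  have e2 : (fun y : ℝ => eAdd (ξ * (((p : ℝ) - 1 + y) / p))) =
      fun y : ℝ => eAdd (((p : ℝ) - 1) * (ξ / p)) * eAdd (ξ / p * y) :=
    funext fun y => by rw [← eAdd_add]; congr 1; ring
  rw [e1, e2, integral_const_mul, ← cantorFourier]
  ring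

/-- **A factor `p` changes nothing at an integer.** -/
theorem cantorFourier_mul_self {p : ℕ} (hp : 2 ≤ p) (n : ℕ) :
    cantorFourier p ((p * n : ℕ) : ℝ) = cantorFourier p (n : ℝ) := by
  have hp0 : (p : ℝ) ≠ 0 := Nat.cast_ne_zero.2 (by omega)
  rw [cantorFourier_rec hp, Nat.cast_mul, mul_div_cancel_left₀ _ hp0,
    show ((p : ℝ) - 1) * (n : ℝ) = ((((p : ℤ) - 1) * n : ℤ) : ℝ) by push_cast; ring, eAdd_intCast]
  ring

theorem cantorFourier_pow_mul {p : ℕ} (hp : 2 ≤ p) (a n : ℕ) :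
    cantorFourier p ((p ^ a * n : ℕ) : ℝ) = cantorFourier p (n : ℝ) := by
  induction a with
  | zero => simp
  | succ a ih => rw [pow_succ', mul_assoc, cantorFourier_mul_self hp, ih]

/-- The size of the factor of one digit. -/
def digitCos (p : ℕ) (u : ℝ) : ℝ := ‖1 + eAdd (((p : ℝ) - 1) * u)‖ / 2

theorem digitCos_nonneg (p : ℕ) (u : ℝ) : 0 ≤ digitCos p u := by unfold digitCos; positivity

theorem digitCos_add_int (p : ℕ) (u : ℝ) (z : ℤ) : digitCos p (u + z) = digitCos p u := by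
  rw [digitCos, digitCos, mul_add, eAdd_add,
    show ((p : ℝ) - 1) * (z : ℝ) = ((((p : ℤ) - 1) * z : ℤ) : ℝ) by push_cast; ring, eAdd_intCast,
    mul_one]

/-- The first `k` factors. -/
def digitProd (p k : ℕ) (ξ : ℝ) : ℝ := ∏ j ∈ range k, digitCos p (ξ / (p : ℝ) ^ (j + 1))

theorem norm_cantorFourier_le {p : ℕ} (hp : 2 ≤ p) :
    ∀ (k : ℕ) (ξ : ℝ), ‖cantorFourier p ξ‖ ≤ digitProd p k ξ
  | 0, ξ => by simpa [digitProd] using norm_cantorFourier_le_one hp ξ
  | k + 1, ξ => by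
    have h : digitProd p (k + 1) ξ = digitCos p (ξ / p) * digitProd p k (ξ / p) := by
      rw [digitProd, digitProd, prod_range_succ', zero_add, pow_one, mul_comm]
      congr 1
      refine prod_congr rfl fun j _ => ?_
      rw [pow_succ' (p : ℝ) (j + 1), div_div]
    rw [cantorFourier_rec hp, norm_mul, norm_div, Complex.norm_ofNat, h]
    exact mul_le_mul_of_nonneg_left (norm_cantorFourier_le hp k (ξ / p)) (digitCos_nonneg _ _)

theorem digitProd_mod {p k : ℕ} (hp : 0 < p) (n : ℕ) :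
    digitProd p k (n : ℝ) = digitProd p k ((n % p ^ k : ℕ) : ℝ) := by
  refine prod_congr rfl fun j hj => ?_
  obtain ⟨i, hi⟩ : ∃ i, k = j + 1 + i := ⟨k - (j + 1), by have := mem_range.1 hj; omega⟩
  obtain ⟨t, ht⟩ : ∃ t, t = n / p ^ k := ⟨_, rfl⟩
  have hp0 : (p : ℝ) ≠ 0 := Nat.cast_ne_zero.2 hp.ne'
  have e : (n : ℝ) / (p : ℝ) ^ (j + 1) =
      ((n % p ^ k : ℕ) : ℝ) / (p : ℝ) ^ (j + 1) + (((p ^ i * t : ℕ) : ℤ) : ℝ) := by
    obtain ⟨u, hu⟩ : ∃ u, u = n % p ^ k := ⟨_, rfl⟩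
    conv_lhs => rw [← Nat.mod_add_div n (p ^ k), ← ht, ← hu, hi, pow_add]
    rw [← hu]
    push_cast
    field_simp
  rw [e, digitCos_add_int]

/-- **The average over `n` equidistant points**, `n ∣ p`. -/
theorem sum_digitCos_le {p n : ℕ} (hn : 2 ≤ n) (hnp : n ∣ p) (v : ℝ) :
    ∑ i ∈ range n, digitCos p (v + i / n) ≤ 3 * n / 4 := by
  have hn0 : (n : ℝ) ≠ 0 := Nat.cast_ne_zero.2 (by omega)
  have hsum : ∑ i ∈ range n, eAdd (((p : ℝ) - 1) * (v + i / n)) = 0 := by
    have e : ∀ i : ℕ, eAdd (((p : ℝ) - 1) * (v + i / n)) =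
        eAdd (((p : ℝ) - 1) * v) * eAdd ((((p : ℤ) - 1 : ℤ) : ℝ) * i / n) := fun i => by
      rw [← eAdd_add]
      congr 1
      push_cast
      ring
    rw [sum_congr rfl fun i _ => e i, ← mul_sum, sum_eAdd_grid (by omega), if_neg, mul_zero]
    intro h
    have h1 : (n : ℤ) ∣ 1 := by simpa using dvd_sub (Int.natCast_dvd_natCast.2 hnp) h
    have := Int.le_of_dvd one_pos h1
    omega
  have hsq : ∑ i ∈ range n, digitCos p (v + i / n) ^ 2 = (n : ℝ) / 2 := by
    have e : ∀ i : ℕ, digitCos p (v + i / n) ^ 2 =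
        (1 + (eAdd (((p : ℝ) - 1) * (v + i / n))).re) / 2 := fun i => by
      obtain ⟨w, hw⟩ : ∃ w, w = eAdd (((p : ℝ) - 1) * (v + i / n)) := ⟨_, rfl⟩
      have hw1 : Complex.normSq w = 1 := by
        rw [hw, Complex.normSq_eq_norm_sq, norm_eAdd, one_pow]
      rw [digitCos, ← hw, div_pow, ← Complex.normSq_eq_norm_sq, Complex.normSq_add, hw1]
      simp
      ring
    rw [sum_congr rfl fun i _ => e i, ← sum_div, sum_add_distrib, ← Complex.re_sum, hsum]
    simp
  refine (pow_le_pow_iff_left₀ (sum_nonneg fun i _ => digitCos_nonneg _ _) (by positivity)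
    two_ne_zero).1 (sq_sum_le_card_mul_sum_sq.trans ?_)
  rw [card_range, hsq]
  nlinarith [sq_nonneg (n : ℝ)]

theorem sum_range_split {M : Type*} [AddCommMonoid M] (F : ℕ → M) (a : ℕ) :
    ∀ b, ∑ x ∈ range (a * b), F x = ∑ i ∈ range b, ∑ u ∈ range a, F (a * i + u)
  | 0 => by simp
  | b + 1 => by rw [Nat.mul_succ, sum_range_add, sum_range_split F a b, sum_range_succ]

/-- **The average over the multiples of `b₂ ^ k`.** -/
theorem sum_digitProd_le {b b₁ b₂ : ℕ} (hb : b₁ * b₂ = b) (h1 : 2 ≤ b₁) (h2 : 0 < b₂)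
    (hco : b₁.Coprime b₂) :
    ∀ k, ∑ t ∈ range (b₁ ^ k), digitProd b k ((b₂ ^ k * t : ℕ) : ℝ) ≤ (3 * b₁ / 4 : ℝ) ^ k
  | 0 => by simp [digitProd]
  | k + 1 => by
    have hb0 : 0 < b := hb ▸ Nat.mul_pos (by omega) h2
    have hb1 : (b₁ : ℝ) ≠ 0 := Nat.cast_ne_zero.2 (by omega)
    have hb2 : (b₂ : ℝ) ≠ 0 := Nat.cast_ne_zero.2 h2.ne'
    have h : ∀ i u : ℕ, digitProd b (k + 1) ((b₂ ^ (k + 1) * (b₁ ^ k * i + u) : ℕ) : ℝ) =
        digitProd b k ((b₂ ^ k * (b₂ * u % b₁ ^ k) : ℕ) : ℝ) *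
          digitCos b ((u : ℝ) / (b₁ : ℝ) ^ (k + 1) + i / b₁) := fun i u => by
      have e : b₂ ^ (k + 1) * (b₁ ^ k * i + u) % b ^ k = b₂ ^ k * (b₂ * u % b₁ ^ k) := by
        rw [← hb, mul_pow, mul_comm (b₁ ^ k) (b₂ ^ k), pow_succ, mul_assoc, Nat.mul_mod_mul_left,
          mul_add, mul_left_comm, Nat.mul_add_mod]
      rw [digitProd, prod_range_succ, ← digitProd, digitProd_mod hb0, e]
      congr 2
      rw [← hb]
      push_cast
      rw [mul_pow, pow_succ (b₁ : ℝ)]
      field_simp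
      ring
    rw [pow_succ b₁ k, sum_range_split, sum_comm, sum_congr rfl fun u _ =>
      (sum_congr rfl fun i _ => h i u).trans (mul_sum _ _ _).symm, pow_succ]
    refine (sum_le_sum fun u _ => mul_le_mul_of_nonneg_left
      (sum_digitCos_le h1 (hb ▸ dvd_mul_right b₁ b₂) _)
      (prod_nonneg fun j _ => digitCos_nonneg _ _)).trans ?_
    rw [← sum_mul]
    refine mul_le_mul_of_nonneg_right (le_trans ?_ (sum_digitProd_le hb h1 h2 hco k))
      (by positivity)
    refine le_trans (le_of_eq (sum_image (f := fun t => digitProd b k ((b₂ ^ k * t : ℕ) : ℝ))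
      fun u hu u' hu' e => ?_).symm)
      (sum_le_sum_of_subset_of_nonneg (fun t ht => ?_) fun t _ _ =>
        prod_nonneg fun j _ => digitCos_nonneg _ _)
    · simp only [mem_coe, mem_range] at hu hu'
      have h3 : u % b₁ ^ k = u' % b₁ ^ k :=
        Nat.ModEq.cancel_left_of_coprime (Nat.Coprime.pow_left k hco) e
      rwa [Nat.mod_eq_of_lt hu, Nat.mod_eq_of_lt hu'] at h3
    · obtain ⟨u, -, rfl⟩ := mem_image.1 ht
      exact mem_range.2 (Nat.mod_lt _ (pow_pos (by omega) k))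

end FA.NormalBases

end
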