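import Fermat.Agent.ThreePrimes.Exponential
import Mathlib.Topology.Instances.CantorSet
import Mathlib.MeasureTheory.Integral.IntervalIntegral.Basic
import Mathlib.MeasureTheory.Constructions.BorelSpace.Metrizable
import Mathlib.MeasureTheory.Function.Floor

/-!
# Cantor measures

The points with digits `0` and `p - 1` in base `p`, the binary digits of a uniform `t` choosing
between them. The measure is self-similar, without atoms, and for `p = 3` it is carried by the
Cantor set.
-/

set_option autoImplicit false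

noncomputable section

namespace FA.NormalBases

open MeasureTheory Finset Filter
open scoped Topology

/-- The number with digits `0` and `p - 1` in base `p` chosen by `ε`. -/
def cantorPoint (p : ℕ) (ε : ℕ → Bool) : ℝ :=
  ∑' i, (if ε i then (p : ℝ) - 1 else 0) * ((p : ℝ) ^ (i + 1))⁻¹

theorem hasSum_top {p : ℕ} (hp : 2 ≤ p) :
    HasSum (fun i : ℕ => ((p : ℝ) - 1) * ((p : ℝ) ^ (i + 1))⁻¹) 1 := by
  have hp1 : (1 : ℝ) < p := Nat.one_lt_cast.2 (by omega)
  have h := (hasSum_geometric_of_lt_one (r := (p : ℝ)⁻¹) (by positivity)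
    (inv_lt_one_of_one_lt₀ hp1)).mul_left (((p : ℝ) - 1) * (p : ℝ)⁻¹)
  have e : ((p : ℝ) - 1) * (p : ℝ)⁻¹ * (1 - (p : ℝ)⁻¹)⁻¹ = 1 := by
    have : (p : ℝ) - 1 ≠ 0 := by linarith
    have : (p : ℝ) ≠ 0 := by linarith
    field_simp
  rw [e] at h
  refine h.congr_fun fun i => ?_
  rw [pow_succ, mul_inv, inv_pow]
  ring

theorem term_nonneg {p : ℕ} (hp : 2 ≤ p) (b : Bool) (i : ℕ) :
    0 ≤ (if b then (p : ℝ) - 1 else 0) * ((p : ℝ) ^ (i + 1))⁻¹ := by
  have hp1 : (1 : ℝ) ≤ p := Nat.one_le_cast.2 (by omega)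
  refine mul_nonneg ?_ (by positivity)
  split_ifs <;> linarith

theorem term_le {p : ℕ} (hp : 2 ≤ p) (b : Bool) (i : ℕ) :
    (if b then (p : ℝ) - 1 else 0) * ((p : ℝ) ^ (i + 1))⁻¹ ≤
      ((p : ℝ) - 1) * ((p : ℝ) ^ (i + 1))⁻¹ := by
  have hp1 : (1 : ℝ) ≤ p := Nat.one_le_cast.2 (by omega)
  refine mul_le_mul_of_nonneg_right ?_ (by positivity)
  split_ifs <;> linarith

theorem summable_cantorPoint {p : ℕ} (hp : 2 ≤ p) (ε : ℕ → Bool) :
    Summable fun i => (if ε i then (p : ℝ) - 1 else 0) * ((p : ℝ) ^ (i + 1))⁻¹ :=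
  (hasSum_top hp).summable.of_nonneg_of_le (fun i => term_nonneg hp _ i) fun i => term_le hp _ i

theorem cantorPoint_mem_Icc {p : ℕ} (hp : 2 ≤ p) (ε : ℕ → Bool) :
    cantorPoint p ε ∈ Set.Icc (0 : ℝ) 1 :=
  ⟨tsum_nonneg fun i => term_nonneg hp _ i,
    ((summable_cantorPoint hp ε).tsum_le_tsum (fun i => term_le hp _ i)
      (hasSum_top hp).summable).trans_eq (hasSum_top hp).tsum_eq⟩

/-- **The first digit taken out.** -/
theorem cantorPoint_eq {p : ℕ} (hp : 2 ≤ p) (ε : ℕ → Bool) :
    cantorPoint p ε =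
      ((if ε 0 then (p : ℝ) - 1 else 0) + cantorPoint p fun i => ε (i + 1)) / p := by
  rw [cantorPoint, (summable_cantorPoint hp ε).tsum_eq_zero_add, add_div, cantorPoint,
    div_eq_mul_inv, div_eq_mul_inv, ← tsum_mul_right]
  refine congrArg₂ (· + ·) (by simp) (tsum_congr fun i => ?_)
  rw [pow_succ (p : ℝ) (i + 1), mul_inv, mul_assoc]

/-- The binary digits. -/
def binaryBit (t : ℝ) (i : ℕ) : Bool := decide (⌊(2 : ℝ) ^ (i + 1) * t⌋ % 2 = 1)

/-- The point chosen by the binary digits of `t`. -/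
def coded (p : ℕ) (t : ℝ) : ℝ := cantorPoint p (binaryBit t)

theorem measurable_coded {p : ℕ} (hp : 2 ≤ p) : Measurable (coded p) := by
  have hb : ∀ i, MeasurableSet {t : ℝ | binaryBit t i = true} := fun i => by
    have hf : Measurable fun t : ℝ => ⌊(2 : ℝ) ^ (i + 1) * t⌋ :=
      (measurable_id.const_mul ((2 : ℝ) ^ (i + 1))).floor
    have hm : Measurable fun t : ℝ => ⌊(2 : ℝ) ^ (i + 1) * t⌋ % 2 :=
      (measurable_of_countable fun n : ℤ => n % 2).comp hf
    simpa [binaryBit, Set.preimage] using hm (measurableSet_singleton (1 : ℤ))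
  refine measurable_of_tendsto_metrizable (f := fun n t => ∑ i ∈ range n,
    (if binaryBit t i then (p : ℝ) - 1 else 0) * ((p : ℝ) ^ (i + 1))⁻¹) (fun n => ?_)
    (tendsto_pi_nhds.2 fun t => (summable_cantorPoint hp (binaryBit t)).hasSum.tendsto_sum_nat)
  exact Finset.measurable_sum _ fun i _ =>
    (Measurable.ite (hb i) measurable_const measurable_const).mul_const _

theorem binaryBit_half (t : ℝ) (i : ℕ) : binaryBit (t / 2) (i + 1) = binaryBit t i := by
  rw [binaryBit, binaryBit, pow_succ (2 : ℝ) (i + 1), mul_assoc, mul_div_cancel₀ t two_ne_zero]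

theorem binaryBit_half_add (t : ℝ) (i : ℕ) :
    binaryBit (t / 2 + 1 / 2) (i + 1) = binaryBit t i := by
  rw [binaryBit, binaryBit, show (2 : ℝ) ^ (i + 1 + 1) * (t / 2 + 1 / 2) =
    (2 : ℝ) ^ (i + 1) * t + ((2 * 2 ^ i : ℤ) : ℝ) by push_cast; ring, Int.floor_add_intCast,
    Int.add_mul_emod_self_left]

theorem coded_half {p : ℕ} (hp : 2 ≤ p) {t : ℝ} (h0 : 0 ≤ t) (h1 : t < 1) :
    coded p (t / 2) = coded p t / p := by
  rw [coded, cantorPoint_eq hp, coded, funext (binaryBit_half t), binaryBit, zero_add, pow_one,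
    mul_div_cancel₀ t two_ne_zero, Int.floor_eq_zero_iff.2 ⟨h0, h1⟩]
  simp

theorem coded_half_add {p : ℕ} (hp : 2 ≤ p) {t : ℝ} (h0 : 0 ≤ t) (h1 : t < 1) :
    coded p (t / 2 + 1 / 2) = ((p : ℝ) - 1 + coded p t) / p := by
  rw [coded, cantorPoint_eq hp, coded, funext (binaryBit_half_add t), binaryBit, zero_add, pow_one,
    show (2 : ℝ) * (t / 2 + 1 / 2) = t + ((1 : ℤ) : ℝ) by push_cast; ring, Int.floor_add_intCast,
    Int.floor_eq_zero_iff.2 ⟨h0, h1⟩]
  simp

/-- **The Cantor measure in base `p`.** -/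
def cantorMeasure (p : ℕ) : Measure ℝ := (volume.restrict (Set.Ioc (0 : ℝ) 1)).map (coded p)

theorem isProbabilityMeasure_cantorMeasure {p : ℕ} (hp : 2 ≤ p) :
    IsProbabilityMeasure (cantorMeasure p) :=
  ⟨by rw [cantorMeasure, Measure.map_apply (measurable_coded hp) MeasurableSet.univ]; simp⟩

theorem integral_cantorMeasure {p : ℕ} (hp : 2 ≤ p) {G : ℝ → ℂ} (hG : Measurable G) :
    ∫ y, G y ∂cantorMeasure p = ∫ t in (0 : ℝ)..1, G (coded p t) := by
  rw [cantorMeasure, integral_map (measurable_coded hp).aemeasurable hG.aestronglyMeasurable,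
    intervalIntegral.integral_of_le zero_le_one]

theorem intervalIntegrable_coded {p : ℕ} (hp : 2 ≤ p) {G : ℝ → ℂ} (hG : Measurable G)
    (hb : ∀ y, ‖G y‖ ≤ 1) (a b : ℝ) :
    IntervalIntegrable (fun t => G (coded p t)) volume a b :=
  (intervalIntegrable_const (c := (1 : ℝ))).mono_fun'
    (hG.comp (measurable_coded hp)).aestronglyMeasurable (Eventually.of_forall fun _ => hb _)

/-- **Self-similarity.** -/
theorem integral_selfSimilar {p : ℕ} (hp : 2 ≤ p) {G : ℝ → ℂ} (hG : Measurable G)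
    (hb : ∀ y, ‖G y‖ ≤ 1) :
    ∫ y, G y ∂cantorMeasure p =
      ((∫ y, G (y / p) ∂cantorMeasure p) + ∫ y, G (((p : ℝ) - 1 + y) / p) ∂cantorMeasure p) /
        2 := by
  have hne : ∀ᵐ t : ℝ, t ≠ 1 := by simp [ae_iff]
  have e1 : ∫ t in (0 : ℝ)..1, G (coded p t / p) =
      (2 : ℝ) • ∫ t in (0 : ℝ)..(1 / 2), G (coded p t) := by
    have h := intervalIntegral.integral_comp_div (a := 0) (b := 1) (fun t => G (coded p t))
      (two_ne_zero (α := ℝ))
    rw [zero_div] at h
    rw [← h]
    refine intervalIntegral.integral_congr_ae ?_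
    filter_upwards [hne] with t ht1 ht
    rw [Set.uIoc_of_le zero_le_one, Set.mem_Ioc] at ht
    rw [coded_half hp ht.1.le (ht.2.lt_of_ne ht1)]
  have e2 : ∫ t in (0 : ℝ)..1, G (((p : ℝ) - 1 + coded p t) / p) =
      (2 : ℝ) • ∫ t in (1 / 2 : ℝ)..1, G (coded p t) := by
    have h := intervalIntegral.integral_comp_div_add (a := 0) (b := 1) (fun t => G (coded p t))
      (two_ne_zero (α := ℝ)) (1 / 2)
    rw [zero_div, zero_add, show (1 : ℝ) / 2 + 1 / 2 = 1 by norm_num] at h
    rw [← h]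
    refine intervalIntegral.integral_congr_ae ?_
    filter_upwards [hne] with t ht1 ht
    rw [Set.uIoc_of_le zero_le_one, Set.mem_Ioc] at ht
    rw [coded_half_add hp ht.1.le (ht.2.lt_of_ne ht1)]
  rw [integral_cantorMeasure hp hG,
    integral_cantorMeasure hp (G := fun y => G (y / p)) (hG.comp (measurable_id.div_const _)),
    integral_cantorMeasure hp
      (G := fun y => G (((p : ℝ) - 1 + y) / p))
      (hG.comp ((measurable_id.const_add ((p : ℝ) - 1)).div_const _)), e1, e2,
    ← intervalIntegral.integral_add_adjacent_intervals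
      (intervalIntegrable_coded hp hG hb 0 (1 / 2)) (intervalIntegrable_coded hp hG hb (1 / 2) 1),
    Complex.real_smul, Complex.real_smul]
  push_cast
  ring

theorem cantorMeasure_eq_one {p : ℕ} (hp : 2 ≤ p) {S : Set ℝ} (hS : MeasurableSet S)
    (h : ∀ ε, cantorPoint p ε ∈ S) : cantorMeasure p S = 1 := by
  rw [cantorMeasure, Measure.map_apply (measurable_coded hp) hS,
    show coded p ⁻¹' S = Set.univ from Set.eq_univ_of_forall fun t => h _]
  simp

/-- **No atoms.** -/
theorem cantorMeasure_singleton {p : ℕ} (hp : 3 ≤ p) (y : ℝ) : cantorMeasure p {y} = 0 := by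
  have hp2 : 2 ≤ p := by omega
  have := isProbabilityMeasure_cantorMeasure hp2
  have hpr : (3 : ℝ) ≤ p := by exact_mod_cast hp
  have hsupp : ∀ y, y ∉ Set.Icc (0 : ℝ) 1 → (cantorMeasure p).real {y} = 0 := fun y hy => by
    rw [measureReal_def, cantorMeasure,
      Measure.map_apply (measurable_coded hp2) (measurableSet_singleton y),
      Set.eq_empty_of_forall_notMem (s := coded p ⁻¹' {y}) fun t (ht : coded p t = y) =>
        hy (ht ▸ cantorPoint_mem_Icc hp2 _)]
    simp
  have hrec : ∀ y, (cantorMeasure p).real {y} = ((cantorMeasure p).real {(p : ℝ) * y} +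
      (cantorMeasure p).real {(p : ℝ) * y - ((p : ℝ) - 1)}) / 2 := fun y => by
    have hint : ∀ y', ∫ x, ({y'} : Set ℝ).indicator (fun _ => (1 : ℂ)) x ∂cantorMeasure p =
        (((cantorMeasure p).real {y'} : ℝ) : ℂ) := fun y' => by
      rw [integral_indicator_const _ (measurableSet_singleton y'), Complex.real_smul, mul_one]
    have h := integral_selfSimilar hp2 (G := ({y} : Set ℝ).indicator fun _ => (1 : ℂ))
      (measurable_const.indicator (measurableSet_singleton y)) fun x => by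
        by_cases hx : x = y <;> simp [hx]
    have e1 : ∀ x : ℝ, ({y} : Set ℝ).indicator (fun _ => (1 : ℂ)) (x / p) =
        ({(p : ℝ) * y} : Set ℝ).indicator (fun _ => (1 : ℂ)) x := fun x => by
      simp only [Set.indicator_apply, Set.mem_singleton_iff, div_eq_iff (show (p : ℝ) ≠ 0 by
        linarith), mul_comm y]
    have e2 : ∀ x : ℝ, ({y} : Set ℝ).indicator (fun _ => (1 : ℂ)) (((p : ℝ) - 1 + x) / p) =
        ({(p : ℝ) * y - ((p : ℝ) - 1)} : Set ℝ).indicator (fun _ => (1 : ℂ)) x := fun x => by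
      simp only [Set.indicator_apply, Set.mem_singleton_iff, div_eq_iff (show (p : ℝ) ≠ 0 by
        linarith), mul_comm y, eq_sub_iff_add_eq', add_comm]
    rw [funext e1, funext e2, hint, hint, hint] at h
    refine Complex.ofReal_injective (h.trans ?_)
    push_cast
    rfl
  have hk : ∀ k : ℕ, ∀ y, (cantorMeasure p).real {y} ≤ (1 / 2 : ℝ) ^ k := by
    intro k
    induction k with
    | zero => exact fun y => by rw [pow_zero]; exact measureReal_le_one
    | succ k ih =>
      intro y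
      rw [hrec, pow_succ]
      by_cases hy : (p : ℝ) * y ∈ Set.Icc (0 : ℝ) 1
      · rw [hsupp ((p : ℝ) * y - _) fun h' => by linarith [h'.1, hy.2]]
        linarith [ih ((p : ℝ) * y)]
      · rw [hsupp _ hy]
        linarith [ih ((p : ℝ) * y - ((p : ℝ) - 1))]
  have h0 : (cantorMeasure p).real {y} ≤ 0 :=
    ge_of_tendsto' (tendsto_pow_atTop_nhds_zero_of_lt_one (by norm_num) (by norm_num))
      fun k => hk k y
  exact (measureReal_eq_zero_iff).1 (le_antisymm h0 measureReal_nonneg)

theorem cantorMeasure_countable {p : ℕ} (hp : 3 ≤ p) {S : Set ℝ} (hS : S.Countable) :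
    cantorMeasure p S = 0 := by
  rw [← Set.biUnion_of_singleton S, measure_biUnion_null_iff hS]
  exact fun y _ => cantorMeasure_singleton hp y

theorem cantorSet_eq_range : cantorSet = Set.range (cantorPoint 3) := by
  have e : ∀ ε : ℕ → Bool, cantorPoint 3 ε = Real.ofDigits fun i => cond (ε i) (2 : Fin 3) 0 :=
    fun ε => by
      refine tsum_congr fun i => ?_
      cases h : ε i <;> norm_num [Real.ofDigitsTerm, h]
  ext x
  constructor
  · intro hx
    refine ⟨(cantorToBinary x).get, ?_⟩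
    rw [e]
    exact ofDigits_cantorToTernary hx
  · rintro ⟨ε, rfl⟩
    rw [e]
    exact ofDigits_bool_to_fin_three_mem_cantorSet ε

end FA.NormalBases

end
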