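import Fermat.Agent.NormalBases.Progression
import Fermat.Agent.Equidistribution.Criterion
import Mathlib.Analysis.PSeries

/-!
# Normality in independent bases

The mean square of the exponential sum of `h r ^ n x` under the Cantor measure in base `b` saves
`(7 / 8) ^ log_b N` for `r` independent of `b`: some power `r ^ e` is `b ^ a` times an `R` prime to
a prime divisor of `b`, and the transform does not see the factor `b ^ a`. The saving is summable
along `N = j ^ M`; the gaps are negligible. In base `b` the digit `1` occurs at most once.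
-/

set_option autoImplicit false

noncomputable section

namespace FA.NormalBases

open MeasureTheory Finset Filter
open FA.ThreePrimes (eAdd eAdd_add norm_eAdd conj_eAdd)
open FA.Equidist (avg ExpMeanZero IntervalMean)
open scoped Topology ComplexConjugate ENNReal

/-- The exponential sum of `h r ^ n y`. -/
def powSum (h r : ℕ) (y : ℝ) (N : ℕ) : ℂ := ∑ n ∈ range N, eAdd (((h * r ^ n : ℕ) : ℝ) * y)

theorem norm_powSum_le (h r : ℕ) (y : ℝ) (N : ℕ) : ‖powSum h r y N‖ ≤ N :=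
  (norm_sum_le _ _).trans (by simp [norm_eAdd])

/-- No powers agree. -/
def IndepBases (r b : ℕ) : Prop := ∀ i j : ℕ, 0 < i → 0 < j → r ^ i ≠ b ^ j

/-- **The reduction.** -/
theorem exists_reduction {b r : ℕ} (hb : 2 ≤ b) (hr : 2 ≤ r) (hind : IndepBases r b) :
    ∃ e a R p : ℕ, 0 < e ∧ r ^ e = b ^ a * R ∧ 2 ≤ R ∧ p.Prime ∧ p ∣ b ∧ ¬p ∣ R := by
  have hpos : ∀ q ∈ b.primeFactors, 0 < b.factorization q := fun q hq =>
    (Nat.prime_of_mem_primeFactors hq).factorization_pos_of_dvd (by omega)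
      (Nat.dvd_of_mem_primeFactors hq)
  obtain ⟨p, hp, hmin⟩ := b.primeFactors.exists_min_image
    (fun q => (r.factorization q : ℚ) / b.factorization q) (Nat.nonempty_primeFactors.2 hb)
  obtain ⟨e, he⟩ : ∃ e, e = b.factorization p := ⟨_, rfl⟩
  obtain ⟨a, ha⟩ : ∃ a, a = r.factorization p := ⟨_, rfl⟩
  have he0 : 0 < e := he ▸ hpos p hp
  obtain ⟨R, hR⟩ : b ^ a ∣ r ^ e := by
    refine (Nat.factorization_le_iff_dvd (pow_ne_zero _ (by omega)) (pow_ne_zero _ (by omega))).1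
      fun q => ?_
    simp only [Nat.factorization_pow, Finsupp.smul_apply, smul_eq_mul]
    rcases Nat.eq_zero_or_pos (b.factorization q) with h | h
    · simp [h]
    have hq : q ∈ b.primeFactors := Nat.support_factorization b ▸ Finsupp.mem_support_iff.2 h.ne'
    have h1 := hmin q hq
    rw [div_le_div_iff₀ (Nat.cast_pos.2 (hpos p hp)) (Nat.cast_pos.2 h), ← he, ← ha] at h1
    calc a * b.factorization q ≤ r.factorization q * e := by exact_mod_cast h1
      _ = e * r.factorization q := mul_comm _ _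
  have hR0 : R ≠ 0 := fun h => by
    rw [h, mul_zero] at hR
    exact (pow_pos (show 0 < r by omega) e).ne' hR
  refine ⟨e, a, R, p, he0, hR, ?_, Nat.prime_of_mem_primeFactors hp,
    Nat.dvd_of_mem_primeFactors hp, fun h => ?_⟩
  · by_contra hlt
    rw [show R = 1 by omega, mul_one] at hR
    rcases Nat.eq_zero_or_pos a with h | h
    · rw [h, pow_zero] at hR
      have := Nat.one_lt_pow he0.ne' (show 1 < r by omega)
      omega
    · exact hind e a he0 h hR
  · have h1 := congrArg (fun n => n.factorization p) hR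
    simp only [Nat.factorization_mul (pow_ne_zero a (by omega : b ≠ 0)) hR0,
      Nat.factorization_pow, Finsupp.add_apply, Finsupp.smul_apply, smul_eq_mul, ← he, ← ha] at h1
    have := (Nat.prime_of_mem_primeFactors hp).factorization_pos_of_dvd hR0 h
    rw [mul_comm a e] at h1
    omega

/-- **The transform along `h (r ^ d - 1) r ^ m` on average over `d`.** -/
theorem exists_double_sum_le {b r h : ℕ} (hb : 2 ≤ b) (hr : 2 ≤ r) (hind : IndepBases r b)
    (hh : 0 < h) :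
    ∃ C : ℝ, 0 ≤ C ∧ ∀ N : ℕ, 0 < N → ∑ d ∈ range N, ∑ m ∈ range N,
      ‖cantorFourier b ((h * (r ^ (d + 1) - 1) * r ^ m : ℕ) : ℝ)‖ ≤
        C * ((N : ℝ) * Nat.log b N + (N : ℝ) ^ 2 * (7 / 8 : ℝ) ^ Nat.log b N) := by
  obtain ⟨e, a, R, p, he, hR, hR2, hp, hpb, hpR⟩ := exists_reduction hb hr hind
  obtain ⟨b₁, b₂, hbb, h1, hcop, hco, hdvd⟩ :=
    exists_coprime_split (show b ≠ 0 by omega) hp hpb hpR
  obtain ⟨C₁, hC₁, hC⟩ := exists_progression_le hbb hb h1 hR2 hcop hco hdvd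
  obtain ⟨C₂, hC₂⟩ := exists_sum_gcd_le (show b ≠ 0 by omega) hr
  obtain ⟨C₃, hC₃⟩ := exists_card_divisors_pow_le (show b ≠ 0 by omega)
  have hC₃0 : 0 ≤ C₃ := by simpa using le_trans (by positivity) (hC₃ 0 1 (one_dvd _))
  refine ⟨e * (b + 1) + e * C₁ * (h * r ^ e : ℕ) * C₂ * C₃, by positivity, fun N hN => ?_⟩
  obtain ⟨k, hk⟩ : ∃ k, k = Nat.log b N := ⟨_, rfl⟩
  rw [← hk]
  have hb10 : 0 < b₁ := by omega
  obtain ⟨G, hG⟩ : ∃ G : ℕ → ℝ, G = fun d => (((r ^ (d + 1) - 1).gcd (b₁ ^ k) : ℕ) : ℝ) :=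
    ⟨_, rfl⟩
  have hd : ∀ d, ∑ m ∈ range N, ‖cantorFourier b ((h * (r ^ (d + 1) - 1) * r ^ m : ℕ) : ℝ)‖ ≤
      e * ((b : ℝ) * k + N * (C₁ * ((h * r ^ e : ℕ) * G d) + 1) * (3 / 4 : ℝ) ^ k) := fun d => by
    refine (sum_le_sum_of_subset_of_nonneg (range_mono (Nat.le_mul_of_pos_left N he))
      fun m _ _ => norm_nonneg _).trans ?_
    rw [sum_range_split, sum_comm]
    refine (sum_le_card_nsmul _ _ ((b : ℝ) * k + N * (C₁ * ((h * r ^ e : ℕ) * G d) + 1) *
      (3 / 4 : ℝ) ^ k) fun j hj => ?_).trans (le_of_eq (by rw [card_range, nsmul_eq_mul]))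
    have hH : 0 < h * (r ^ (d + 1) - 1) * r ^ j :=
      Nat.mul_pos (Nat.mul_pos hh (by
        have := Nat.one_lt_pow (n := d + 1) (by omega) (show 1 < r by omega)
        omega)) (pow_pos (by omega) j)
    have e1 : ∀ i, cantorFourier b ((h * (r ^ (d + 1) - 1) * r ^ (e * i + j) : ℕ) : ℝ) =
        cantorFourier b ((h * (r ^ (d + 1) - 1) * r ^ j * R ^ i : ℕ) : ℝ) := fun i => by
      rw [show r ^ (e * i + j) = b ^ (a * i) * R ^ i * r ^ j by
          rw [pow_add, pow_mul, hR, mul_pow, ← pow_mul],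
        show h * (r ^ (d + 1) - 1) * (b ^ (a * i) * R ^ i * r ^ j) =
          b ^ (a * i) * (h * (r ^ (d + 1) - 1) * r ^ j * R ^ i) by ring,
        cantorFourier_pow_mul hb]
    simp only [e1]
    refine (hC _ N hH hN).trans ?_
    rw [← hk]
    gcongr
    rw [hG, ← Nat.cast_mul (h * r ^ e), Nat.cast_le]
    refine Nat.le_of_dvd (Nat.mul_pos (Nat.mul_pos hh (pow_pos (by omega) e))
      (Nat.gcd_pos_of_pos_right _ (pow_pos hb10 k))) ?_
    rw [mul_right_comm, mul_comm (h * r ^ j) (r ^ (d + 1) - 1), mul_comm (h * r ^ e)]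
    rw [Nat.gcd_comm _ (b₁ ^ k), Nat.gcd_comm (r ^ (d + 1) - 1)]
    refine (Nat.gcd_mul_right_dvd_mul_gcd _ _ _).trans (mul_dvd_mul dvd_rfl ?_)
    exact (Nat.gcd_dvd_right _ _).trans
      (mul_dvd_mul_left h (pow_dvd_pow r (mem_range.1 hj).le))
  refine (sum_le_sum fun d _ => hd d).trans ?_
  rw [← mul_sum, sum_add_distrib, sum_const, card_range, nsmul_eq_mul, ← sum_mul, ← mul_sum,
    sum_add_distrib, ← mul_sum, ← mul_sum, sum_const, card_range, nsmul_one]
  have hgcd : ∑ d ∈ range N, G d ≤ (C₂ : ℝ) * N * ((b₁ ^ k).divisors.card : ℝ) := by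
    simp only [hG]
    exact_mod_cast hC₂ _ N (pow_pos hb10 k) fun q hq hqd =>
      hbb ▸ dvd_mul_of_dvd_left (hq.dvd_of_dvd_pow hqd) b₂
  have hτ := hC₃ k (b₁ ^ k) (pow_dvd_pow_of_dvd (hbb ▸ dvd_mul_right b₁ b₂) k)
  have h34 : (3 / 4 : ℝ) ^ k ≤ (7 / 8 : ℝ) ^ k := pow_le_pow_left₀ (by norm_num) (by norm_num) k
  have i1 := mul_le_mul_of_nonneg_left hgcd
    (show 0 ≤ (e : ℝ) * N * C₁ * (h * r ^ e : ℕ) * (3 / 4 : ℝ) ^ k by positivity)
  have i2 := mul_le_mul_of_nonneg_left hτ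
    (show 0 ≤ (e : ℝ) * (N : ℝ) ^ 2 * C₁ * (h * r ^ e : ℕ) * C₂ by positivity)
  have i3 := mul_le_mul_of_nonneg_left h34 (show 0 ≤ (e : ℝ) * (N : ℝ) ^ 2 by positivity)
  have : 0 ≤ (e : ℝ) * (b : ℝ) * ((N : ℝ) ^ 2 * (7 / 8 : ℝ) ^ k) := by positivity
  have : 0 ≤ (e : ℝ) * ((N : ℝ) * k) := by positivity
  have : 0 ≤ (e : ℝ) * C₁ * (h * r ^ e : ℕ) * C₂ * C₃ * ((N : ℝ) * k) := by positivity
  linarith

/-- **The mean square.** -/
theorem exists_meanSquare_le {b r h : ℕ} (hb : 3 ≤ b) (hr : 2 ≤ r) (hind : IndepBases r b)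
    (hh : 0 < h) :
    ∃ C : ℝ, 0 ≤ C ∧ ∀ N : ℕ, 0 < N →
      ∫ y, ‖powSum h r y N‖ ^ 2 ∂cantorMeasure b ≤
        C * (N : ℝ) ^ 2 * (7 / 8 : ℝ) ^ Nat.log b N := by
  have hb2 : 2 ≤ b := by omega
  have := isProbabilityMeasure_cantorMeasure hb2
  obtain ⟨C, hC0, hC⟩ := exists_double_sum_le hb2 hr hind hh
  refine ⟨1 + 4 * C, by positivity, fun N hN => ?_⟩
  obtain ⟨g, hg⟩ : ∃ g : ℕ × ℕ → ℝ, g = fun z =>
      ‖cantorFourier b (((h * r ^ z.1 : ℕ) : ℝ) - ((h * r ^ z.2 : ℕ) : ℝ))‖ := ⟨_, rfl⟩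
  have hg0 : ∀ z, 0 ≤ g z := fun z => hg ▸ norm_nonneg _
  have hgsymm : ∀ z, g z = g (z.2, z.1) := fun z => by
    simp only [hg]
    rw [← neg_sub, cantorFourier_neg, Complex.norm_conj]
  have h1 : ∫ y, ‖powSum h r y N‖ ^ 2 ∂cantorMeasure b ≤ ∑ z ∈ range N ×ˢ range N, g z := by
    have e : (((∫ y, ‖powSum h r y N‖ ^ 2 ∂cantorMeasure b : ℝ)) : ℂ) =
        ∑ z ∈ range N ×ˢ range N,
          cantorFourier b (((h * r ^ z.1 : ℕ) : ℝ) - ((h * r ^ z.2 : ℕ) : ℝ)) := by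
      simp only [cantorFourier]
      rw [← integral_finsetSum _ fun z _ =>
        Integrable.of_bound (continuous_eAdd_mul _).aestronglyMeasurable 1
          (Eventually.of_forall fun y => (norm_eAdd _).le), ← integral_complex_ofReal]
      refine integral_congr_ae (Eventually.of_forall fun y => ?_)
      simp only [powSum, Complex.ofReal_pow, ← Complex.mul_conj', map_sum, sum_mul_sum,
        ← sum_product', conj_eAdd, ← eAdd_add]
      refine sum_congr rfl fun z _ => ?_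
      congr 1
      ring
    refine (le_abs_self _).trans ?_
    rw [← Real.norm_eq_abs, ← Complex.norm_real, e, hg]
    exact norm_sum_le _ _
  have hdiag : ∑ z ∈ (range N ×ˢ range N).filter (fun z => z.1 = z.2), g z ≤ N := by
    refine (sum_le_card_nsmul _ _ 1 fun z _ => hg ▸ norm_cantorFourier_le_one hb2 _).trans ?_
    rw [nsmul_one, Nat.cast_le]
    exact (card_le_card_of_injOn Prod.fst (fun z hz => (mem_product.1 (mem_filter.1 hz).1).1)
      fun z hz z' hz' e => Prod.ext e (((mem_filter.1 hz).2.symm.trans e).trans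
        (mem_filter.1 hz').2)).trans_eq (card_range N)
  have hupper : ∑ z ∈ (range N ×ˢ range N).filter (fun z => z.2 < z.1), g z ≤
      C * ((N : ℝ) * Nat.log b N + (N : ℝ) ^ 2 * (7 / 8 : ℝ) ^ Nat.log b N) := by
    refine le_trans ?_ (le_of_eq_of_le
      (sum_congr rfl fun d _ => sum_congr rfl fun m _ => ?_) (hC N hN)
      (a := ∑ d ∈ range N, ∑ m ∈ range N, g (m + (d + 1), m)))
    · rw [← sum_product' (range N) (range N) fun d m => g (m + (d + 1), m)]
      refine le_trans (le_of_eq ?_) (sum_le_sum_of_subset_of_nonneg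
        (s := ((range N ×ˢ range N).filter fun z => z.2 < z.1).image fun z => (z.1 - z.2 - 1, z.2))
        (fun z hz => ?_) fun z _ _ => hg0 _)
      · rw [sum_image fun z hz z' hz' e => ?_]
        · refine sum_congr rfl fun z hz => ?_
          simp only [mem_filter] at hz
          rw [show z.2 + (z.1 - z.2 - 1 + 1) = z.1 by omega]
        · simp only [mem_coe, mem_filter] at hz hz'
          simp only [Prod.mk.injEq] at e
          exact Prod.ext (by omega) e.2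
      · obtain ⟨w, hw, rfl⟩ := mem_image.1 hz
        simp only [mem_filter, mem_product, mem_range] at hw ⊢
        omega
    · have hrd : 1 < r ^ (d + 1) := Nat.one_lt_pow (by omega) (by omega)
      simp only [hg]
      congr 2
      rw [Nat.cast_mul, Nat.cast_mul, Nat.cast_mul (h * _), Nat.cast_mul, Nat.cast_sub hrd.le]
      push_cast
      ring
  have hlower : ∑ z ∈ (range N ×ˢ range N).filter (fun z => z.1 < z.2), g z =
      ∑ z ∈ (range N ×ˢ range N).filter (fun z => z.2 < z.1), g z :=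
    sum_nbij' (fun z => (z.2, z.1)) (fun z => (z.2, z.1))
      (fun z hz => by simp only [mem_filter, mem_product] at hz ⊢; tauto)
      (fun z hz => by simp only [mem_filter, mem_product] at hz ⊢; tauto)
      (fun _ _ => rfl) (fun _ _ => rfl) fun z _ => hgsymm z
  have hsplit : ∑ z ∈ range N ×ˢ range N, g z =
      ∑ z ∈ (range N ×ˢ range N).filter (fun z => z.1 = z.2), g z +
        (∑ z ∈ (range N ×ˢ range N).filter (fun z => z.2 < z.1), g z +
          ∑ z ∈ (range N ×ˢ range N).filter (fun z => z.1 < z.2), g z) := by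
    rw [sum_filter, sum_filter, sum_filter, ← sum_add_distrib, ← sum_add_distrib]
    refine sum_congr rfl fun z _ => ?_
    rcases lt_trichotomy z.1 z.2 with h | h | h
    · rw [if_neg h.ne, if_neg h.not_gt, if_pos h, zero_add, zero_add]
    · rw [if_pos h, if_neg (by omega), if_neg (by omega), zero_add, add_zero]
    · rw [if_neg h.ne', if_pos h, if_neg h.not_gt, zero_add, add_zero]
  refine h1.trans ?_
  rw [hsplit, hlower]
  obtain ⟨k, hk⟩ : ∃ k, k = Nat.log b N := ⟨_, rfl⟩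
  rw [← hk] at hupper ⊢
  have h3k : ((3 : ℝ) ^ k) ≤ N := by
    exact_mod_cast (Nat.pow_le_pow_left hb k).trans (hk ▸ Nat.pow_log_le_self b hN.ne')
  have hk78 : (1 + (k : ℝ)) ≤ N * (7 / 8 : ℝ) ^ k := by
    have h2 : (1 + (k : ℝ)) ≤ 2 ^ k := by exact_mod_cast (show 1 + k ≤ 2 ^ k by
      have := Nat.lt_two_pow_self (n := k); omega)
    refine h2.trans (le_trans (pow_le_pow_left₀ two_pos.le
      (show (2 : ℝ) ≤ 3 * (7 / 8) by norm_num) k) ?_)
    rw [mul_pow]
    exact mul_le_mul_of_nonneg_right h3k (by positivity)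
  have := mul_le_mul_of_nonneg_left hk78 (show (0 : ℝ) ≤ N * (1 + 2 * C) by positivity)
  have : 0 ≤ (N : ℝ) * k := by positivity
  have : 0 ≤ 2 * C * (N : ℝ) := by positivity
  linarith

/-- **The means vanish along the powers `j ^ M`.** -/
theorem exists_ae_sparse {b r h : ℕ} (hb : 3 ≤ b) (hr : 2 ≤ r) (hind : IndepBases r b)
    (hh : 0 < h) :
    ∃ M : ℕ, 0 < M ∧ ∀ᵐ y ∂cantorMeasure b,
      Tendsto (fun j : ℕ => ‖powSum h r y (j ^ M)‖ / ((j : ℝ) ^ M)) atTop (𝓝 0) := by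
  have := isProbabilityMeasure_cantorMeasure (show 2 ≤ b by omega)
  obtain ⟨C, hC0, hC⟩ := exists_meanSquare_le hb hr hind hh
  have hpr : (0 : ℝ) < b := Nat.cast_pos.2 (by omega)
  have hb1 : 1 < b := by omega
  obtain ⟨M₀, hM₀⟩ := exists_pow_lt_of_lt_one (show (0 : ℝ) < 1 / (b : ℝ) ^ 2 by positivity)
    (show (7 / 8 : ℝ) < 1 by norm_num)
  obtain ⟨M, hM⟩ : ∃ M, M = M₀ + 2 := ⟨_, rfl⟩
  refine ⟨M, by omega, ?_⟩
  have hMp : (7 / 8 : ℝ) ^ M ≤ 1 / (b : ℝ) ^ 2 :=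
    (pow_le_pow_of_le_one (by norm_num) (by norm_num) (by omega : M₀ ≤ M)).trans hM₀.le
  obtain ⟨φ, hφ⟩ : ∃ φ : ℕ → ℝ → ℝ, φ = fun j y => (‖powSum h r y (j ^ M)‖ / (j : ℝ) ^ M) ^ 2 :=
    ⟨_, rfl⟩
  have hcont : ∀ j, Continuous (φ j) := fun j => by
    simp only [hφ, powSum]
    exact (((continuous_finsetSum _ fun n _ => continuous_eAdd_mul _).norm).div_const _).pow 2
  have hφ0 : ∀ j y, 0 ≤ φ j y := fun j y => hφ ▸ sq_nonneg _
  have hbound : ∀ j, ∫ y, φ j y ∂cantorMeasure b ≤ (1 + C * b ^ 2) / (j : ℝ) ^ 2 := fun j => by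
    rcases Nat.eq_zero_or_pos j with rfl | hj
    · simp [hφ, zero_pow (show M ≠ 0 by omega)]
    have hjr : (0 : ℝ) < j := Nat.cast_pos.2 hj
    simp only [hφ, div_pow]
    rw [integral_div, div_le_iff₀ (by positivity)]
    refine (hC _ (pow_pos hj M)).trans ?_
    obtain ⟨l, hl⟩ : ∃ l, l = Nat.log b j := ⟨_, rfl⟩
    have hlog : l * M ≤ Nat.log b (j ^ M) := Nat.le_log_of_pow_le hb1 (by
      rw [pow_mul]
      exact Nat.pow_le_pow_left (hl ▸ Nat.pow_log_le_self b hj.ne') M)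
    have hjl : (j : ℝ) ≤ b * (b : ℝ) ^ l := by
      have h := Nat.lt_pow_succ_log_self hb1 j
      rw [← hl, pow_succ'] at h
      exact_mod_cast h.le
    have h78 : (7 / 8 : ℝ) ^ Nat.log b (j ^ M) ≤ (b : ℝ) ^ 2 / (j : ℝ) ^ 2 := by
      refine (pow_le_pow_of_le_one (by norm_num) (by norm_num) hlog).trans ?_
      rw [mul_comm l M, pow_mul, le_div_iff₀ (by positivity)]
      refine (mul_le_mul (pow_le_pow_left₀ (by positivity) hMp l)
        (pow_le_pow_left₀ hjr.le hjl 2) (by positivity) (by positivity)).trans (le_of_eq ?_)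
      rw [div_pow, one_pow, mul_pow, ← pow_mul, ← pow_mul, mul_comm l 2]
      field_simp
    have h2 := mul_le_mul_of_nonneg_left h78
      (show 0 ≤ C * (((j ^ M : ℕ) : ℝ)) ^ 2 by positivity)
    have : 0 ≤ 1 / (j : ℝ) ^ 2 * ((j : ℝ) ^ M) ^ 2 := by positivity
    push_cast at h2 ⊢
    refine h2.trans ((le_add_of_nonneg_left this).trans (le_of_eq ?_))
    ring
  have hmeas : ∀ j, AEMeasurable (fun y => ENNReal.ofReal (φ j y)) (cantorMeasure b) := fun j =>
    ((hcont j).measurable.ennreal_ofReal).aemeasurable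
  have hfin : ∫⁻ y, ∑' j, ENNReal.ofReal (φ j y) ∂cantorMeasure b ≠ ∞ := by
    rw [lintegral_tsum hmeas]
    refine ne_top_of_le_ne_top ?_ (ENNReal.tsum_le_tsum
      (g := fun j : ℕ => ENNReal.ofReal ((1 + C * (b : ℝ) ^ 2) / (j : ℝ) ^ 2)) fun j => ?_)
    · have hs : Summable fun j : ℕ => (1 + C * (b : ℝ) ^ 2) / (j : ℝ) ^ 2 := by
        simpa only [mul_one_div] using
          (Real.summable_one_div_nat_pow.2 one_lt_two).mul_left (1 + C * (b : ℝ) ^ 2)
      rw [← ENNReal.ofReal_tsum_of_nonneg (fun j => by positivity) hs]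
      exact ENNReal.ofReal_ne_top
    · have hint : Integrable (φ j) (cantorMeasure b) :=
        Integrable.of_bound (hcont j).aestronglyMeasurable 1 (Eventually.of_forall fun y => by
          rw [Real.norm_eq_abs, abs_of_nonneg (hφ0 j y), hφ]
          refine pow_le_one₀ (by positivity) (div_le_one_of_le₀ ?_ (by positivity))
          exact (norm_powSum_le _ _ _ _).trans_eq (by push_cast; rfl))
      rw [← ofReal_integral_eq_lintegral_ofReal hint (Eventually.of_forall (hφ0 j))]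
      exact ENNReal.ofReal_le_ofReal (hbound j)
  filter_upwards [ae_lt_top' (AEMeasurable.tsum hmeas) hfin] with y hy
  have h1 := (ENNReal.tendsto_toReal ENNReal.zero_ne_top).comp
    (ENNReal.tendsto_atTop_zero_of_tsum_ne_top hy.ne)
  have h2 : Tendsto (fun j => φ j y) atTop (𝓝 0) := h1.congr fun j => by
    simp only [Function.comp_apply, ENNReal.toReal_ofReal (hφ0 j y)]
  have h3 := h2.sqrt
  rw [Real.sqrt_zero] at h3
  refine h3.congr fun j => ?_
  rw [hφ, Real.sqrt_sq (by positivity)]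

/-- **The gaps.** -/
theorem tendsto_avg_of_sparse {u : ℕ → ℂ} (hu : ∀ n, ‖u n‖ ≤ 1) {M : ℕ} (hM : 0 < M)
    (h : Tendsto (fun j : ℕ => ‖∑ n ∈ range (j ^ M), u n‖ / ((j : ℝ) ^ M)) atTop (𝓝 0)) :
    Tendsto (fun N : ℕ => (∑ n ∈ range N, u n) / (N : ℂ)) atTop (𝓝 0) := by
  have hgap : Tendsto (fun j : ℕ => ((((j : ℝ) + 1) / j) ^ M - 1)) atTop (𝓝 0) := by
    have h1 : Tendsto (fun j : ℕ => (1 : ℝ) + 1 / (j : ℝ)) atTop (𝓝 (1 + 0)) :=
      tendsto_const_nhds.add (tendsto_const_div_atTop_nhds_zero_nat 1)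
    have h2 := (h1.pow M).sub_const 1
    rw [add_zero, one_pow, sub_self] at h2
    refine h2.congr' ?_
    filter_upwards [eventually_gt_atTop 0] with j hj
    rw [add_div, div_self (Nat.cast_ne_zero.2 hj.ne')]
  refine Metric.tendsto_atTop.2 fun ε hε => ?_
  obtain ⟨J₁, hJ₁⟩ := Metric.tendsto_atTop.1 h (ε / 2) (by positivity)
  obtain ⟨J₂, hJ₂⟩ := Metric.tendsto_atTop.1 hgap (ε / 2) (by positivity)
  obtain ⟨J, hJ⟩ : ∃ J, J = J₁ + J₂ + 1 := ⟨_, rfl⟩
  refine ⟨J ^ M, fun N hN => ?_⟩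
  obtain ⟨j, hj⟩ : ∃ j, j = Nat.findGreatest (fun i => i ^ M ≤ N) N := ⟨_, rfl⟩
  have hJj : J ≤ j := hj ▸ Nat.le_findGreatest ((Nat.le_self_pow hM.ne' J).trans hN) hN
  have hjN : j ^ M ≤ N := hj ▸ Nat.findGreatest_spec (P := fun i => i ^ M ≤ N) (m := J)
    ((Nat.le_self_pow hM.ne' J).trans hN) hN
  have hNj : N < (j + 1) ^ M := by
    by_contra! hc
    have : j + 1 ≤ j := by
      nth_rewrite 2 [hj]
      exact Nat.le_findGreatest ((Nat.le_self_pow hM.ne' _).trans hc) hc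
    omega
  have hj0 : (0 : ℝ) < j := Nat.cast_pos.2 (by omega)
  have hN0 : (0 : ℝ) < N := Nat.cast_pos.2 ((pow_pos (by omega) M).trans_le hjN)
  have h1 := hJ₁ j (by omega)
  have h2 := hJ₂ j (by omega)
  rw [dist_zero_right, Real.norm_eq_abs, abs_lt] at h1 h2
  have hS : ‖∑ n ∈ range N, u n‖ ≤
      ‖∑ n ∈ range (j ^ M), u n‖ + (((j : ℝ) + 1) ^ M - (j : ℝ) ^ M) := by
    rw [← sum_range_add_sum_Ico u hjN]
    refine (norm_add_le _ _).trans
      (add_le_add le_rfl ((norm_sum_le_of_le _ fun n _ => hu n).trans ?_))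
    rw [sum_const, nsmul_eq_mul, mul_one, Nat.card_Ico, Nat.cast_sub hjN]
    push_cast
    have h3 : (N : ℝ) ≤ ((j : ℝ) + 1) ^ M := by exact_mod_cast hNj.le
    linarith
  rw [dist_zero_right, norm_div, Complex.norm_natCast, div_lt_iff₀ hN0]
  have hjM : ((j : ℝ) ^ M) ≤ N := by exact_mod_cast hjN
  have e1 := (div_lt_iff₀ (pow_pos hj0 M)).1 h1.2
  have e2 : ((j : ℝ) + 1) ^ M - (j : ℝ) ^ M < ε / 2 * (j : ℝ) ^ M := by
    have := h2.2
    rw [div_pow, sub_lt_iff_lt_add, div_lt_iff₀ (pow_pos hj0 M)] at this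
    linarith
  have := mul_le_mul_of_nonneg_left hjM hε.le
  linarith

theorem ae_expMeanZero {b r : ℕ} (hb : 3 ≤ b) (hr : 2 ≤ r)
    (hind : IndepBases r b) :
    ∀ᵐ y ∂cantorMeasure b, ExpMeanZero range fun n => (r : ℝ) ^ n * y := by
  have hone : ∀ h : ℕ, ∀ᵐ y ∂cantorMeasure b, 0 < h →
      Tendsto (fun N : ℕ => powSum h r y N / (N : ℂ)) atTop (𝓝 0) := fun h => by
    rcases Nat.eq_zero_or_pos h with rfl | hh
    · exact Eventually.of_forall fun y h => absurd h (lt_irrefl 0)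
    obtain ⟨M, hM, hae⟩ := exists_ae_sparse hb hr hind hh
    filter_upwards [hae] with y hy _
    exact tendsto_avg_of_sparse (u := fun n => eAdd (((h * r ^ n : ℕ) : ℝ) * y))
      (fun n => (norm_eAdd _).le) hM hy
  filter_upwards [ae_all_iff.2 hone] with y hy
  intro k hk
  have h := hy k.natAbs (Int.natAbs_pos.2 hk)
  have habs : ((k.natAbs : ℕ) : ℝ) = |(k : ℝ)| := by rw [Nat.cast_natAbs, Int.cast_abs]
  rcases le_or_gt 0 (k : ℝ) with hk0 | hk0
  · refine h.congr fun N => ?_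
    simp only [powSum, avg, card_range]
    congr 1
    refine sum_congr rfl fun n _ => congrArg eAdd ?_
    rw [Nat.cast_mul, habs, abs_of_nonneg hk0]
    push_cast
    ring
  · have h' := (Complex.continuous_conj.tendsto 0).comp h
    rw [map_zero] at h'
    refine h'.congr fun N => ?_
    simp only [Function.comp_apply, powSum, avg, card_range, map_div₀, map_natCast, map_sum,
      conj_eAdd]
    congr 1
    refine sum_congr rfl fun n _ => congrArg eAdd ?_
    rw [Nat.cast_mul, habs, abs_of_neg hk0]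
    push_cast
    ring

theorem floor_pow_emod {r : ℕ} (hr : 0 < r) (i k : ℕ) (x : ℝ) :
    ⌊(r : ℝ) ^ (i + k) * x⌋ % ((r : ℤ) ^ k) = ⌊(r : ℝ) ^ k * Int.fract ((r : ℝ) ^ i * x)⌋ := by
  have e : ⌊(r : ℝ) ^ k * Int.fract ((r : ℝ) ^ i * x)⌋ =
      ⌊(r : ℝ) ^ (i + k) * x⌋ - (r : ℤ) ^ k * ⌊(r : ℝ) ^ i * x⌋ := by
    rw [Int.fract, mul_sub, show (r : ℝ) ^ k * (⌊(r : ℝ) ^ i * x⌋ : ℝ) =
      (((r : ℤ) ^ k * ⌊(r : ℝ) ^ i * x⌋ : ℤ) : ℝ) by push_cast; ring, Int.floor_sub_intCast,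
      pow_add]
    congr 2
    ring
  have hlo : 0 ≤ ⌊(r : ℝ) ^ k * Int.fract ((r : ℝ) ^ i * x)⌋ :=
    Int.floor_nonneg.2 (mul_nonneg (by positivity) (Int.fract_nonneg _))
  have hhi : ⌊(r : ℝ) ^ k * Int.fract ((r : ℝ) ^ i * x)⌋ < (r : ℤ) ^ k :=
    Int.floor_lt.2 (by
      push_cast
      exact mul_lt_of_lt_one_right (by positivity) (Int.fract_lt_one _))
  rw [← Int.emod_eq_of_lt hlo hhi, e, Int.sub_mul_emod_self_left]

/-- Every block of `k` digits occurs with frequency `r ^ (-k)`. -/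
def IsNormalIn (r : ℕ) (y : ℝ) : Prop :=
  ∀ k W : ℕ, W < r ^ k →
    Tendsto (fun N : ℕ => (((range N).filter fun i =>
      ⌊(r : ℝ) ^ (i + k) * y⌋ % ((r : ℤ) ^ k) = (W : ℤ)).card : ℝ) / N) atTop
        (𝓝 (1 / (r : ℝ) ^ k))

theorem isNormalIn_of_expMeanZero {r : ℕ} (hr : 2 ≤ r) {y : ℝ}
    (hy : ExpMeanZero range fun n => (r : ℝ) ^ n * y) : IsNormalIn r y := by
  intro k W hW
  have hK : (0 : ℝ) < (r : ℝ) ^ k := by positivity
  have hWK : (W : ℝ) + 1 ≤ (r : ℝ) ^ k := by exact_mod_cast hW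
  have h := hy.intervalMean (by simp only [card_range]; exact tendsto_id)
    ((W : ℝ) / (r : ℝ) ^ k) (((W : ℝ) + 1) / (r : ℝ) ^ k) (by positivity)
    (div_le_div_of_nonneg_right (by linarith) hK.le) (by rwa [div_le_one hK])
  rw [← sub_div, add_sub_cancel_left] at h
  refine h.congr fun N => ?_
  rw [card_range]
  congr 3
  refine filter_congr fun i _ => ?_
  rw [floor_pow_emod (by omega), Int.floor_eq_iff, Set.mem_Ico, div_le_iff₀ hK, lt_div_iff₀ hK,
    mul_comm (Int.fract _)]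
  push_cast
  rfl

/-- **Almost every point is normal in base `r`.** -/
theorem ae_normal {b r : ℕ} (hb : 3 ≤ b) (hr : 2 ≤ r) (hind : IndepBases r b) :
    ∀ᵐ y ∂cantorMeasure b, IsNormalIn r y := by
  filter_upwards [ae_expMeanZero hb hr hind] with y hy
  exact isNormalIn_of_expMeanZero hr hy

/-- **The digit `1` occurs at most once in base `p`.** -/
theorem eq_of_digit_one {p : ℕ} (hp : 3 ≤ p) (ε : ℕ → Bool) {i j : ℕ}
    (hi : ⌊(p : ℝ) ^ (i + 1) * cantorPoint p ε⌋ % (p : ℤ) = 1)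
    (hj : ⌊(p : ℝ) ^ (j + 1) * cantorPoint p ε⌋ % (p : ℤ) = 1) : i = j := by
  have hp0 : (p : ℝ) ≠ 0 := Nat.cast_ne_zero.2 (by omega)
  have hshift : ∀ n, ∃ A : ℤ,
      (p : ℝ) ^ n * cantorPoint p ε = A + cantorPoint p fun l => ε (l + n) := by
    intro n
    induction n with
    | zero => exact ⟨0, by simp⟩
    | succ n ih =>
      obtain ⟨A, hA⟩ := ih
      refine ⟨p * A + if ε n then (p : ℤ) - 1 else 0, ?_⟩
      rw [pow_succ', mul_assoc, hA, cantorPoint_eq (by omega), mul_add,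
        mul_div_cancel₀ _ hp0]
      simp only [zero_add]
      rw [show (fun l => ε (l + 1 + n)) = fun l => ε (l + (n + 1)) from
        funext fun l => by rw [add_assoc, add_comm 1 n]]
      split_ifs <;> (push_cast; ring)
  have hint : ∀ i, ⌊(p : ℝ) ^ (i + 1) * cantorPoint p ε⌋ % (p : ℤ) = 1 →
      ∃ A : ℤ, (p : ℝ) ^ (i + 1) * cantorPoint p ε = A := by
    intro i hi
    obtain ⟨A, hA⟩ := hshift i
    obtain ⟨Y, hY⟩ : ∃ Y, Y = cantorPoint p fun l => ε (l + i + 1) := ⟨_, rfl⟩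
    have hY1 := hY ▸ cantorPoint_mem_Icc (show 2 ≤ p by omega) fun l => ε (l + i + 1)
    obtain ⟨d, hd⟩ : ∃ d : ℤ, d = if ε i then (p : ℤ) - 1 else 0 := ⟨_, rfl⟩
    have e : (p : ℝ) ^ (i + 1) * cantorPoint p ε = ((p * A + d : ℤ) : ℝ) + Y := by
      rw [pow_succ', mul_assoc, hA, cantorPoint_eq (by omega), mul_add, mul_div_cancel₀ _ hp0,
        hd, hY]
      simp only [zero_add]
      rw [show (fun l => ε (l + 1 + i)) = fun l => ε (l + i + 1) from
        funext fun l => by rw [add_right_comm]]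
      split_ifs <;> (push_cast; ring)
    by_cases hY0 : Y = 1
    · exact ⟨p * A + d + 1, by rw [e, hY0]; push_cast; ring⟩
    exfalso
    rw [e, Int.floor_intCast_add, Int.floor_eq_zero_iff.2 ⟨hY1.1, hY1.2.lt_of_ne hY0⟩, add_zero,
      Int.add_emod, Int.mul_emod_right, zero_add, Int.emod_emod, hd] at hi
    split_ifs at hi
    · rw [Int.emod_eq_of_lt (by omega) (by omega)] at hi
      omega
    · rw [Int.zero_emod] at hi
      exact zero_ne_one hi
  have key : ∀ i j, i < j → ⌊(p : ℝ) ^ (i + 1) * cantorPoint p ε⌋ % (p : ℤ) = 1 →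
      ⌊(p : ℝ) ^ (j + 1) * cantorPoint p ε⌋ % (p : ℤ) = 1 → False := by
    intro i j hij hi hj
    obtain ⟨A, hA⟩ := hint i hi
    obtain ⟨d, rfl⟩ : ∃ d, j = i + (d + 1) := ⟨j - i - 1, by omega⟩
    rw [show i + (d + 1) + 1 = (d + 1) + (i + 1) by ring, pow_add, mul_assoc, hA,
      show (p : ℝ) ^ (d + 1) * (A : ℝ) = (((p : ℤ) ^ (d + 1) * A : ℤ) : ℝ) by push_cast; rfl,
      Int.floor_intCast, pow_succ', mul_assoc, Int.mul_emod_right] at hj
    exact zero_ne_one hj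
  rcases lt_trichotomy i j with h | h | h
  · exact (key i j h hi hj).elim
  · exact h
  · exact (key j i h hj hi).elim

theorem not_tendsto_of_digit_once {p : ℕ} (hp : 3 ≤ p) {y : ℝ}
    (hy : ∀ i j : ℕ, ⌊(p : ℝ) ^ (i + 1) * y⌋ % (p : ℤ) = 1 →
      ⌊(p : ℝ) ^ (j + 1) * y⌋ % (p : ℤ) = 1 → i = j) :
    ¬Tendsto (fun N : ℕ => (((range N).filter fun i =>
        ⌊(p : ℝ) ^ (i + 1) * y⌋ % ((p : ℤ) ^ 1) = ((1 : ℕ) : ℤ)).card : ℝ) / N)
      atTop (𝓝 (1 / (p : ℝ) ^ 1)) := by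
  intro h
  have h0 : Tendsto (fun N : ℕ => (((range N).filter fun i =>
      ⌊(p : ℝ) ^ (i + 1) * y⌋ % ((p : ℤ) ^ 1) = ((1 : ℕ) : ℤ)).card : ℝ) / N)
      atTop (𝓝 0) := by
    refine squeeze_zero (fun N => by positivity) (fun N => div_le_div_of_nonneg_right
      ((Nat.cast_le.2 (Finset.card_le_one.2 fun i hi j hj => ?_)).trans_eq Nat.cast_one)
        (Nat.cast_nonneg N)) (tendsto_const_div_atTop_nhds_zero_nat 1)
    simp only [mem_filter, pow_one, Nat.cast_one] at hi hj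
    exact hy i j hi.2 hj.2
  have := tendsto_nhds_unique h h0
  rw [pow_one, one_div, inv_eq_zero] at this
  exact (Nat.cast_ne_zero.2 (by omega)) this

/-- **None is normal in base `p`.** -/
theorem not_normal_self {p : ℕ} (hp : 3 ≤ p) (ε : ℕ → Bool) :
    ¬Tendsto (fun N : ℕ => (((range N).filter fun i =>
        ⌊(p : ℝ) ^ (i + 1) * cantorPoint p ε⌋ % ((p : ℤ) ^ 1) = ((1 : ℕ) : ℤ)).card : ℝ) / N)
      atTop (𝓝 (1 / (p : ℝ) ^ 1)) :=
  not_tendsto_of_digit_once hp fun _ _ => eq_of_digit_one hp ε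

/-- Almost no point is normal in base `p`. -/
theorem ae_not_normal_self {p : ℕ} (hp : 3 ≤ p) : ∀ᵐ y ∂cantorMeasure p, ¬IsNormalIn p y := by
  have h : ∀ᵐ y ∂cantorMeasure p, ∀ i j : ℕ, ⌊(p : ℝ) ^ (i + 1) * y⌋ % (p : ℤ) = 1 →
      ⌊(p : ℝ) ^ (j + 1) * y⌋ % (p : ℤ) = 1 → i = j := by
    refine ae_all_iff.2 fun i => ae_all_iff.2 fun j => ?_
    have hm : ∀ l : ℕ, MeasurableSet {y : ℝ | ⌊(p : ℝ) ^ (l + 1) * y⌋ % (p : ℤ) = 1} := fun l => by
      have hf : Measurable fun y : ℝ => ⌊(p : ℝ) ^ (l + 1) * y⌋ :=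
        (measurable_id.const_mul ((p : ℝ) ^ (l + 1))).floor
      exact ((measurable_of_countable fun n : ℤ => n % (p : ℤ)).comp hf)
        (measurableSet_singleton 1)
    refine (ae_map_iff (measurable_coded (show 2 ≤ p by omega)).aemeasurable ?_).2
      (Eventually.of_forall fun t => eq_of_digit_one hp (binaryBit t))
    exact (hm i).imp ((hm j).imp (MeasurableSet.const _))
  filter_upwards [h] with y hy hn
  exact not_tendsto_of_digit_once hp hy (hn 1 1 (by rw [pow_one]; omega))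

end FA.NormalBases

end
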