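import Fermat.Agent.NormalBases.Fourier
import Mathlib.NumberTheory.Multiplicity
import Mathlib.FieldTheory.Finite.Basic
import Mathlib.NumberTheory.ArithmeticFunction.Misc
import Mathlib.Analysis.SpecificLimits.Normed

/-!
# The transform along a geometric progression

For `R` prime to a prime divisor of `b` the numbers `H R ^ i` fall modulo `b ^ k` evenly into
multiples of `b₂ ^ k`, `b₂` the part of `b` with the primes of `R`, up to the common divisor of `H`
and `b₁ ^ k`. For `H = r ^ d - 1` that divisor is bounded on average over `d` by the number of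
divisors.
-/

set_option autoImplicit false

noncomputable section

namespace FA.NormalBases

open Finset Filter
open scoped Topology

theorem padicValNat_pow_sub_one_le {q r d : ℕ} (hq : q.Prime) (hr : 2 ≤ r) (hqr : ¬q ∣ r)
    (hd : 0 < d) :
    padicValNat q (r ^ d - 1) ≤
      padicValNat q (r ^ (2 * (q - 1)) - 1) + padicValNat q d := by
  have : Fact q.Prime := ⟨hq⟩
  have hq1 : 0 < q - 1 := by have := hq.two_le; omega
  have hmono : ∀ e, d ∣ e → 0 < e →
      padicValNat q (r ^ d - 1) ≤ padicValNat q (r ^ e - 1) := fun e he he0 =>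
    (padicValNat_dvd_iff_le (by have := Nat.one_lt_pow he0.ne' (show 1 < r by omega); omega)).1
      (pow_padicValNat_dvd.trans (Nat.pow_sub_one_dvd_pow_sub_one r he))
  rcases eq_or_ne q 2 with rfl | hq2
  · refine (hmono (2 * d) (dvd_mul_left d 2) (by omega)).trans ?_
    rw [Nat.two_dvd_ne_zero] at hqr
    have h1 := padicValNat.pow_two_sub_pow (x := r) (y := 1) (n := 2 * d) (by omega)
      (Nat.dvd_of_mod_eq_zero (by omega)) (by omega) (by omega) (even_two_mul d)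
    rw [one_pow, padicValNat.mul two_ne_zero hd.ne', padicValNat_self] at h1
    have h2 : padicValNat 2 (r ^ (2 * (2 - 1)) - 1) =
        padicValNat 2 (r + 1) + padicValNat 2 (r - 1) := by
      rw [← padicValNat.mul (by omega) (by omega), show 2 * (2 - 1) = 2 from rfl, ← Nat.sq_sub_sq,
        one_pow]
    omega
  · refine (hmono (2 * (q - 1) * d) (dvd_mul_left d _)
      (Nat.mul_pos (by omega) hd)).trans (le_of_eq ?_)
    obtain ⟨x, hx⟩ : ∃ x, x = r ^ (2 * (q - 1)) := ⟨_, rfl⟩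
    have hx1 : 1 < x := hx ▸ Nat.one_lt_pow (by omega) (by omega)
    have hdx : q ∣ x - 1 := by
      refine (Nat.modEq_iff_dvd' hx1.le).1 ?_
      have h := (Nat.ModEq.pow_totient ((hq.coprime_iff_not_dvd.2 hqr).symm)).pow 2
      rw [Nat.totient_prime hq, ← pow_mul, one_pow, mul_comm] at h
      exact hx ▸ h.symm
    have hnx : ¬q ∣ x := fun h => hqr (hq.dvd_of_dvd_pow (hx ▸ h))
    rw [pow_mul, ← hx]
    simpa using padicValNat.pow_sub_pow (hq.odd_of_ne_two hq2) hx1 hdx hnx hd.ne'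

/-- **A divisor of `r ^ d - 1` with the primes of `b` is at most a multiple of `d`.** -/
theorem exists_dvd_bound {b r : ℕ} (hb : b ≠ 0) (hr : 2 ≤ r) :
    ∃ C : ℕ, 0 < C ∧ ∀ M d : ℕ, 0 < d → (∀ q : ℕ, q.Prime → q ∣ M → q ∣ b) →
      M ∣ r ^ d - 1 → M ≤ C * d := by
  have hpos : ∀ q ∈ b.primeFactors, 0 < r ^ (2 * (q - 1)) - 1 := fun q hq => by
    have := (Nat.prime_of_mem_primeFactors hq).two_le
    have := Nat.one_lt_pow (show 2 * (q - 1) ≠ 0 by omega) (show 1 < r by omega)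
    omega
  refine ⟨∏ q ∈ b.primeFactors, (r ^ (2 * (q - 1)) - 1), prod_pos hpos, fun M d hd hM hMd => ?_⟩
  refine Nat.le_of_dvd (Nat.mul_pos (prod_pos hpos) hd)
    ((Nat.dvd_iff_prime_pow_dvd_dvd _ _).2 fun q k hq hk => ?_)
  rcases Nat.eq_zero_or_pos k with rfl | hk0
  · exact one_dvd _
  have : Fact q.Prime := ⟨hq⟩
  have hqM : q ∣ M := (dvd_pow_self q hk0.ne').trans hk
  have hqr : ¬q ∣ r := fun h => by
    have h1 : q ∣ r ^ d - 1 := hqM.trans hMd
    have h2 : q ∣ r ^ d - (r ^ d - 1) := Nat.dvd_sub (dvd_pow h hd.ne') h1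
    have := Nat.one_le_pow d r (by omega)
    rw [show r ^ d - (r ^ d - 1) = 1 by omega] at h2
    exact hq.not_dvd_one h2
  have h1 := (padicValNat_dvd_iff_le (by
    have := Nat.one_lt_pow hd.ne' (show 1 < r by omega)
    omega)).1 (hk.trans hMd)
  refine (pow_dvd_pow q (h1.trans (padicValNat_pow_sub_one_le hq hr hqr hd))).trans ?_
  rw [pow_add]
  exact mul_dvd_mul (pow_padicValNat_dvd.trans (dvd_prod_of_mem _
    (Nat.mem_primeFactors.2 ⟨hq, hM q hq hqM, hb⟩))) pow_padicValNat_dvd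

/-- **The primes of `R` split off.** -/
theorem exists_coprime_split {b R p : ℕ} (hb : b ≠ 0) (hp : p.Prime) (hpb : p ∣ b) (hpR : ¬p ∣ R) :
    ∃ b₁ b₂ : ℕ, b₁ * b₂ = b ∧ 2 ≤ b₁ ∧ b₁.Coprime R ∧ b₁.Coprime b₂ ∧ b₂ ∣ R ^ b := by
  obtain ⟨b₁, hb₁⟩ := Nat.gcd_dvd_left b (R ^ b)
  have hb₁0 : b₁ ≠ 0 := fun h => hb (by rw [hb₁, h, mul_zero])
  have hcop : b₁.Coprime R := Nat.coprime_of_dvd fun q hq h1 h2 => by
    have h3 : q ^ b.factorization q ∣ b.gcd (R ^ b) :=
      Nat.dvd_gcd (Nat.ordProj_dvd b q) ((pow_dvd_pow q (Nat.le_of_lt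
        (Nat.factorization_lt q hb))).trans (pow_dvd_pow_of_dvd h2 b))
    refine Nat.pow_succ_factorization_not_dvd hb hq ?_
    conv_rhs => rw [hb₁]
    rw [pow_succ]
    exact mul_dvd_mul h3 h1
  refine ⟨b₁, b.gcd (R ^ b), by rw [mul_comm, ← hb₁], ?_, hcop,
    (hcop.pow_right b).of_dvd_right (Nat.gcd_dvd_right b (R ^ b)), Nat.gcd_dvd_right _ _⟩
  have h1 : p ∣ b₁ := ((hp.coprime_iff_not_dvd.2 fun h => hpR
    (hp.dvd_of_dvd_pow (h.trans (Nat.gcd_dvd_right b (R ^ b))))).dvd_of_dvd_mul_left (hb₁ ▸ hpb))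
  exact hp.two_le.trans (Nat.le_of_dvd (Nat.pos_of_ne_zero hb₁0) h1)

/-- **The sum along a progression.** -/
theorem exists_progression_le {b b₁ b₂ R : ℕ} (hb : b₁ * b₂ = b) (hb2 : 2 ≤ b) (h1 : 2 ≤ b₁)
    (hR : 2 ≤ R) (hcop : b₁.Coprime R) (hco : b₁.Coprime b₂) (hdvd : b₂ ∣ R ^ b) :
    ∃ C : ℝ, 0 ≤ C ∧ ∀ H N : ℕ, 0 < H → 0 < N →
      ∑ i ∈ range N, ‖cantorFourier b ((H * R ^ i : ℕ) : ℝ)‖ ≤
        b * Nat.log b N + N * (C * (H.gcd (b₁ ^ Nat.log b N)) + 1) *
          (3 / 4 : ℝ) ^ Nat.log b N := by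
  have hb0 : b ≠ 0 := by omega
  obtain ⟨C, hC0, hC⟩ := exists_dvd_bound hb0 hR
  have h20 : 0 < b₂ := Nat.pos_of_ne_zero fun h => hb0 (by rw [← hb, h, mul_zero])
  refine ⟨C, Nat.cast_nonneg _, fun H N hH hN => ?_⟩
  obtain ⟨k, hk⟩ : ∃ k, k = Nat.log b N := ⟨_, rfl⟩
  rw [← hk]
  obtain ⟨g, hg⟩ : ∃ g, g = H.gcd (b₁ ^ k) := ⟨_, rfl⟩
  rw [← hg]
  have hg0 : 0 < g := hg ▸ Nat.gcd_pos_of_pos_left _ hH
  have hM0 : 0 < b₁ ^ k := pow_pos (by omega) k
  rw [← sum_filter_add_sum_filter_not (range N) (fun i => i < b * k), add_comm (_ * _ : ℝ)] at *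
  rw [add_comm ((N : ℝ) * _ * _)]
  refine add_le_add ((sum_le_card_nsmul _ _ 1 fun i _ =>
    norm_cantorFourier_le_one hb2 _).trans ?_) ?_
  · rw [nsmul_one, ← Nat.cast_mul, Nat.cast_le]
    exact (card_le_card fun i hi => mem_range.2 (mem_filter.1 hi).2).trans (card_range _).le
  have hu : ∀ i, ¬i < b * k → H * R ^ i % b ^ k = b₂ ^ k * (H * R ^ i % b ^ k / b₂ ^ k) :=
    fun i hi => by
      refine (Nat.mul_div_cancel' ((Nat.dvd_mod_iff ?_).2 (dvd_mul_of_dvd_right ?_ H))).symm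
      · rw [← hb, mul_pow]
        exact dvd_mul_left _ _
      · refine (pow_dvd_pow_of_dvd hdvd k).trans ?_
        rw [← pow_mul]
        exact pow_dvd_pow R (not_lt.1 hi)
  refine (sum_le_sum (g := fun i => digitProd b k
    ((b₂ ^ k * (H * R ^ i % b ^ k / b₂ ^ k) : ℕ) : ℝ)) fun i hi => ?_).trans ?_
  · refine (norm_cantorFourier_le hb2 k _).trans_eq ((digitProd_mod (by omega) _).trans ?_)
    rw [← hu i (mem_filter.1 hi).2]
  rw [← sum_fiberwise_of_maps_to (g := fun i => H * R ^ i % b ^ k / b₂ ^ k)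
    (t := range (b₁ ^ k)) (fun i _ => mem_range.2 (Nat.div_lt_of_lt_mul ((Nat.mod_lt _
      (pow_pos (by omega) k)).trans_eq (by rw [← hb, mul_pow, mul_comm]))))]
  refine (sum_le_sum (g := fun t : ℕ => ((N * (C * g) / b₁ ^ k + 1 : ℕ) : ℝ) *
    digitProd b k ((b₂ ^ k * t : ℕ) : ℝ)) fun w _ => ?_).trans ?_
  · rw [sum_congr rfl fun i hi => by rw [(mem_filter.1 hi).2], sum_const, nsmul_eq_mul]
    refine mul_le_mul_of_nonneg_right (Nat.cast_le.2 ?_)
      (prod_nonneg fun j _ => digitCos_nonneg _ _)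
    refine (card_le_card_of_injOn (fun i => i * (C * g) / b₁ ^ k)
      (t := range (N * (C * g) / b₁ ^ k + 1)) (fun i hi => ?_) fun i hi j hj he => ?_).trans
      (card_range _).le
    · simp only [mem_coe, mem_filter, mem_range] at hi ⊢
      exact Nat.lt_succ_of_le (Nat.div_le_div_right (Nat.mul_le_mul_right _ hi.1.1.le))
    · simp only [mem_coe, mem_filter, mem_range] at hi hj
      simp only at he
      have key : ∀ i j, i < j → H * R ^ i ≡ H * R ^ j [MOD b₁ ^ k] →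
          i * (C * g) / b₁ ^ k < j * (C * g) / b₁ ^ k := by
        intro i j hlt hij
        have hmod : H * 1 ≡ H * R ^ (j - i) [MOD b₁ ^ k] := by
          refine Nat.ModEq.cancel_right_of_coprime (c := R ^ i) (Nat.Coprime.pow k i hcop) ?_
          rw [mul_one, mul_assoc, ← pow_add, Nat.sub_add_cancel hlt.le]
          exact hij
        have h3 := Nat.ModEq.cancel_left_div_gcd hM0 hmod
        rw [Nat.gcd_comm, ← hg] at h3
        have hM' : b₁ ^ k / g ∣ b₁ ^ k := Nat.div_dvd_of_dvd (hg ▸ Nat.gcd_dvd_right H _)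
        have h4 := hC _ (j - i) (by omega) (fun q hq hqd => hb ▸ dvd_mul_of_dvd_left
          (hq.dvd_of_dvd_pow (hqd.trans hM')) b₂)
          ((Nat.modEq_iff_dvd' (Nat.one_le_pow _ _ (by omega))).1 h3)
        have h5 : b₁ ^ k ≤ C * g * (j - i) := by
          refine le_trans ?_ (le_of_le_of_eq (Nat.mul_le_mul_right g h4) (by ring))
          rw [Nat.div_mul_cancel (hg ▸ Nat.gcd_dvd_right H _)]
        have h6 : C * g * (j - i) + i * (C * g) = j * (C * g) := by
          rw [mul_comm (C * g), ← add_mul, Nat.sub_add_cancel hlt.le]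
        have h7 := Nat.div_le_div_right (c := b₁ ^ k)
          (show i * (C * g) + b₁ ^ k ≤ j * (C * g) by linarith)
        rw [Nat.add_div_right _ hM0] at h7
        omega
      have hcong : H * R ^ i ≡ H * R ^ j [MOD b₁ ^ k] := by
        refine Nat.ModEq.of_mul_right (b₂ ^ k) ?_
        rw [← mul_pow, hb, Nat.ModEq, hu i hi.1.2, hu j hj.1.2, hi.2, hj.2]
      rcases lt_trichotomy i j with h | h | h
      · exact absurd he (key i j h hcong).ne
      · exact h
      · exact absurd he (key j i h hcong.symm).ne'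
  rw [← mul_sum]
  refine (mul_le_mul_of_nonneg_left (sum_digitProd_le hb h1 h20 hco k)
    (Nat.cast_nonneg _)).trans ?_
  have hMN : (b₁ : ℝ) ^ k ≤ N := by
    refine le_trans ?_ (Nat.cast_le.2 (hk ▸ Nat.pow_log_le_self b hN.ne'))
    push_cast
    exact pow_le_pow_left₀ (Nat.cast_nonneg _)
      (Nat.cast_le.2 (hb ▸ Nat.le_mul_of_pos_right b₁ h20)) k
  have hM0' : (0 : ℝ) < (b₁ : ℝ) ^ k := pow_pos (Nat.cast_pos.2 (by omega)) k
  rw [show (3 * (b₁ : ℝ) / 4) ^ k = (b₁ : ℝ) ^ k * (3 / 4) ^ k by rw [← mul_pow]; ring_nf,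
    ← mul_assoc]
  refine mul_le_mul_of_nonneg_right ?_ (by positivity)
  rw [Nat.cast_add, Nat.cast_one, add_mul, one_mul, mul_add, mul_one]
  refine add_le_add ?_ hMN
  refine (mul_le_mul_of_nonneg_right Nat.cast_div_le hM0'.le).trans (le_of_eq ?_)
  push_cast
  field_simp

/-- **The common divisor on average.** -/
theorem exists_sum_gcd_le {b r : ℕ} (hb : b ≠ 0) (hr : 2 ≤ r) :
    ∃ C : ℕ, ∀ M N : ℕ, 0 < M → (∀ q : ℕ, q.Prime → q ∣ M → q ∣ b) →
      ∑ d ∈ range N, (r ^ (d + 1) - 1).gcd M ≤ C * N * M.divisors.card := by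
  obtain ⟨C, -, hC⟩ := exists_dvd_bound hb hr
  refine ⟨C, fun M N hM hMb => ?_⟩
  refine (sum_le_sum (g := fun d => ∑ D ∈ M.divisors, if D ∣ r ^ (d + 1) - 1 then D else 0)
    fun d _ => ?_).trans ?_
  · refine le_trans (le_of_eq (if_pos (Nat.gcd_dvd_left _ _)).symm) (single_le_sum
      (f := fun D => if D ∣ r ^ (d + 1) - 1 then D else 0) (fun _ _ => Nat.zero_le _)
      (Nat.mem_divisors.2 ⟨Nat.gcd_dvd_right _ _, hM.ne'⟩))
  rw [sum_comm, mul_comm (C * N)]
  refine (sum_le_card_nsmul _ _ (C * N) fun D hD => ?_).trans (smul_eq_mul _ _).le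
  have hDM := Nat.dvd_of_mem_divisors hD
  have hD0 : 0 < D := Nat.pos_of_dvd_of_pos hDM hM
  have hDb : ∀ q : ℕ, q.Prime → q ∣ D → q ∣ b := fun q hq h => hMb q hq (h.trans hDM)
  rw [← sum_filter, sum_const, smul_eq_mul]
  refine le_trans (Nat.mul_le_mul_right D ?_) (Nat.div_mul_le_self (C * N) D)
  refine (card_le_card_of_injOn (fun d => C * (d + 1) / D) (t := Icc 1 (C * N / D))
    (fun d hd => ?_) fun i hi j hj he => ?_).trans (by simp)
  · simp only [mem_coe, mem_filter, mem_range] at hd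
    rw [mem_coe, mem_Icc]
    exact ⟨Nat.div_pos (hC D (d + 1) (Nat.succ_pos d) hDb hd.2) hD0,
      Nat.div_le_div_right (Nat.mul_le_mul_left C hd.1)⟩
  · simp only [mem_coe, mem_filter, mem_range] at hi hj
    simp only at he
    have key : ∀ i j, i < j → D ∣ r ^ (i + 1) - 1 → D ∣ r ^ (j + 1) - 1 →
        C * (i + 1) / D < C * (j + 1) / D := by
      intro i j hlt hi hj
      have hi' := (Nat.modEq_iff_dvd' (Nat.one_le_pow (i + 1) r (by omega))).2 hi
      have hj' := (Nat.modEq_iff_dvd' (Nat.one_le_pow (j + 1) r (by omega))).2 hj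
      have h1 : 1 ≡ r ^ (j - i) [MOD D] := by
        refine hj'.trans ?_
        have := hi'.symm.mul_right (r ^ (j - i))
        rwa [one_mul, ← pow_add, show i + 1 + (j - i) = j + 1 by omega] at this
      have h2 := hC D (j - i) (by omega) hDb
        ((Nat.modEq_iff_dvd' (Nat.one_le_pow _ _ (by omega))).1 h1)
      have h3 : C * (i + 1) + C * (j - i) = C * (j + 1) := by
        rw [← mul_add]
        congr 1
        omega
      have h4 := Nat.div_le_div_right (c := D) (show C * (i + 1) + D ≤ C * (j + 1) by linarith)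
      rw [Nat.add_div_right _ hD0] at h4
      omega
    rcases lt_trichotomy i j with h | h | h
    · exact absurd he (key i j h hi.2 hj.2).ne
    · exact h
    · exact absurd he (key j i h hj.2 hi.2).ne'

/-- **Few divisors.** -/
theorem exists_card_divisors_pow_le {b : ℕ} (hb : b ≠ 0) :
    ∃ C : ℝ, ∀ k M : ℕ, M ∣ b ^ k → (M.divisors.card : ℝ) * (3 / 4 : ℝ) ^ k ≤ C * (7 / 8) ^ k := by
  obtain ⟨B, hB⟩ := (tendsto_pow_const_mul_const_pow_of_lt_one b
    (show (0 : ℝ) ≤ 6 / 7 by norm_num) (by norm_num)).bddAbove_range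
  refine ⟨((b : ℝ) + 1) ^ b * ((7 / 6) * B), fun k M hM => ?_⟩
  have h0 : b ^ k ≠ 0 := pow_ne_zero k hb
  have h1 : M.divisors.card ≤ ((b + 1) * (k + 1)) ^ b := by
    refine (card_le_card (Nat.divisors_subset_of_dvd h0 hM)).trans ?_
    rw [Nat.card_divisors h0]
    rcases Nat.eq_zero_or_pos k with rfl | hk
    · simp only [pow_zero, Nat.primeFactors_one, prod_empty]
      exact Nat.one_le_pow _ _ (by omega)
    rw [Nat.primeFactors_pow b hk.ne']
    refine (prod_le_pow_card _ _ ((b + 1) * (k + 1)) fun q _ => ?_).trans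
      (Nat.pow_le_pow_right (by positivity) ?_)
    · rw [Nat.factorization_pow, Finsupp.smul_apply, smul_eq_mul, mul_comm k]
      have h2 := Nat.mul_le_mul_right k (Nat.factorization_lt q hb).le
      have h3 : (b + 1) * (k + 1) = b * k + b + k + 1 := by ring
      omega
    · refine (card_le_card fun q hq => ?_).trans (Nat.card_Icc 1 b).le |>.trans (by omega)
      exact mem_Icc.2 ⟨(Nat.pos_of_mem_primeFactors hq), Nat.le_of_mem_primeFactors hq⟩
  have hB' := hB ⟨k + 1, rfl⟩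
  simp only [Nat.cast_add, Nat.cast_one] at hB'
  refine (mul_le_mul_of_nonneg_right (Nat.cast_le.2 h1) (by positivity)).trans ?_
  push_cast
  have h2 := mul_le_mul_of_nonneg_left hB'
    (show (0 : ℝ) ≤ ((b : ℝ) + 1) ^ b * (7 / 6) * (7 / 8) ^ k by positivity)
  have e : ((b : ℝ) + 1) ^ b * (7 / 6) * (7 / 8) ^ k * (((k : ℝ) + 1) ^ b * (6 / 7) ^ (k + 1)) =
      (((b : ℝ) + 1) * ((k : ℝ) + 1)) ^ b * (3 / 4) ^ k := by
    have e1 : (7 / 8 : ℝ) ^ k * (6 / 7) ^ k = (3 / 4) ^ k := by rw [← mul_pow]; norm_num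
    rw [mul_pow, ← e1, pow_succ]
    ring
  rw [e] at h2
  linarith

end FA.NormalBases

end
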